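/-
S17lib / Descent  (helper9) — Project G (S17), the abstract descent in the form of helper7's cut
(#h7-E24, item 1):

  `G` abelian, `h : G → ℝ` Northcott, `G / mG` finite, a CRUDE translation bound
  `h x ≤ a * h (g + x) + c g` with ANY constant `a ≥ 0` (uniform in `g`), and ONE expansion
  `b * h x - c₀ ≤ h (m • x)` with ANY `b > 1`   ⟹   `G` is finitely generated.

(iterate `[m]` until `b ^ k > a`, then Mathlib's `AddCommGroup.fg_of_descent`.)
-/
import Mathlib

set_option autoImplicit false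

namespace Fermat.Agent.S17lib

open scoped Pointwise

section Abstract

variable {G : Type*} [AddCommGroup G]

/-- finitely many coset representatives give finite index -/
theorem finiteIndex_of_finite_reps (H : AddSubgroup G) (s : Set G) (hs : s.Finite)
    (hcov : ∀ x : G, ∃ g ∈ s, x - g ∈ H) : H.FiniteIndex := by
  rw [AddSubgroup.finiteIndex_iff_finite_quotient]
  have : Finite s := hs
  refine Finite.of_surjective (fun g : s => (QuotientAddGroup.mk (g : G) : G ⧸ H)) ?_
  intro q
  obtain ⟨x, rfl⟩ := QuotientAddGroup.mk_surjective q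
  obtain ⟨g, hg, hx⟩ := hcov x
  refine ⟨⟨g, hg⟩, ?_⟩
  rw [QuotientAddGroup.eq]
  have : -g + x = x - g := by abel
  rw [this]
  exact hx

/-- a finite index subgroup has a finite set of coset representatives -/
theorem exists_finite_reps (H : AddSubgroup G) [H.FiniteIndex] :
    ∃ s : Set G, s.Finite ∧ ∀ x : G, ∃ g ∈ s, x - g ∈ H := by
  classical
  let qi : G ⧸ H → G := Function.surjInv QuotientAddGroup.mk_surjective
  refine ⟨Set.range qi, Set.finite_range qi, fun x => ⟨qi (QuotientAddGroup.mk x), ⟨_, rfl⟩, ?_⟩⟩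
  have h1 : (QuotientAddGroup.mk (qi (QuotientAddGroup.mk x)) : G ⧸ H) = QuotientAddGroup.mk x :=
    Function.surjInv_eq QuotientAddGroup.mk_surjective _
  rw [QuotientAddGroup.eq] at h1
  have : -qi (QuotientAddGroup.mk x) + x = x - qi (QuotientAddGroup.mk x) := by abel
  rwa [this] at h1

/-- `G / mG` finite ⟹ `G / m^k G` finite -/
theorem finiteIndex_range_nsmul_pow {m : ℕ}
    (H₁ : (nsmulAddMonoidHom (α := G) m).range.FiniteIndex) (k : ℕ) :
    (nsmulAddMonoidHom (α := G) (m ^ k)).range.FiniteIndex := by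
  induction k with
  | zero =>
    refine finiteIndex_of_finite_reps _ {0} (Set.finite_singleton 0) fun x => ⟨0, rfl, ?_⟩
    exact ⟨x, by simp⟩
  | succ k ih =>
    obtain ⟨s, hs, hcov⟩ := exists_finite_reps (nsmulAddMonoidHom (α := G) (m ^ k)).range
    obtain ⟨t, ht, hcov'⟩ := exists_finite_reps (nsmulAddMonoidHom (α := G) m).range
    refine finiteIndex_of_finite_reps _ (Set.image2 (fun g g' => g + m ^ k • g') s t)
      (hs.image2 _ ht) fun x => ?_
    obtain ⟨g, hg, y, hy⟩ := hcov x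
    obtain ⟨g', hg', z, hz⟩ := hcov' y
    refine ⟨g + m ^ k • g', ⟨g, hg, g', hg', rfl⟩, z, ?_⟩
    simp only [nsmulAddMonoidHom_apply] at hy hz ⊢
    have hy' : x = g + m ^ k • y := by rw [hy]; abel
    have hz' : y = g' + m • z := by rw [hz]; abel
    rw [hy', hz', pow_succ, mul_smul, smul_add]
    abel

/-- iterating the expansion `b * h x - c₀ ≤ h (m • x)` -/
theorem exists_expansion_pow {m : ℕ} {h : G → ℝ} {b c₀ : ℝ} (hb : 0 ≤ b)
    (H₃ : ∀ x, b * h x - c₀ ≤ h (m • x)) (k : ℕ) :
    ∃ c : ℝ, ∀ x, b ^ k * h x - c ≤ h ((m ^ k) • x) := by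
  induction k with
  | zero => exact ⟨0, fun x => by simp⟩
  | succ k ih =>
    obtain ⟨c, hc⟩ := ih
    refine ⟨b * c + c₀, fun x => ?_⟩
    have h1 := H₃ ((m ^ k) • x)
    have h2 := mul_le_mul_of_nonneg_left (hc x) hb
    have e : (m ^ (k + 1)) • x = m • ((m ^ k) • x) := by
      rw [pow_succ, mul_comm, mul_smul]
    rw [e, pow_succ]
    nlinarith

/-- **the descent, bootstrapped**: ANY translation constant `a`, ONE expansion factor `b > 1`. -/
theorem fg_of_descent_bootstrap {m : ℕ} {h : G → ℝ} {a b c₀ : ℝ} {c : G → ℝ}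
    (ha : 0 ≤ a) (hb : 1 < b) (H₁ : (nsmulAddMonoidHom (α := G) m).range.FiniteIndex)
    (H₂ : ∀ g x, h x ≤ a * h (g + x) + c g) (H₃ : ∀ x, b * h x - c₀ ≤ h (m • x))
    [Northcott h] : AddGroup.FG G := by
  obtain ⟨k, hk⟩ := pow_unbounded_of_one_lt a hb
  obtain ⟨ck, hck⟩ := exists_expansion_pow (by linarith) H₃ k
  exact AddCommGroup.fg_of_descent (n := m ^ k) (b := b ^ k) (c₀ := ck) ha hk
    (finiteIndex_range_nsmul_pow H₁ k) H₂ hck

end Abstract

end Fermat.Agent.S17lib
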