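/-
S17lib / Blocks  (helper3) — Project G (S17), the ABSTRACT assembly:
Mordell–Weil for a subgroup `G` of a divisor class group `J` from five block statements.

Setting (all abstract): `Pl` = the points (places of degree one, the base point `∞` removed),
`ht : Pl → ℝ` a height of points, effective divisors `Pl →₀ ℕ` with the additive height
`hE D = ∑ n_P · ht P` and degree `degE D = ∑ n_P`, the class map `cls D = [D - (deg D)·∞]`
(a monoid homomorphism), and a height `h : J → ℝ` on classes which is ATTAINED on an effective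
representative of degree `≤ g` (the canonical `∞`-reduced representative).

Blocks:
* (RED)  crude reduction bound: `h (cls D) ≤ A · hE D + B` for `degE D ≤ g² + g`;
* (CM)   division points of `ι P = cls P` have small height: `∃ E, degE E ≤ g`,
         `m • cls E = cls P`, `hE E ≤ κ · ht P + C`, with `A κ < 1`;
* (TORS) `J[m]` finite;  (WMW) `G / m G` finite;  (NC) Northcott for `h` on `G`.
Conclusion: `G` is finitely generated (`fg_of_descent_bootstrap`).
-/
import Mathlib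
import Fermat.Agent.S17lib.Descent

set_option autoImplicit false

noncomputable section

namespace Fermat.Agent.S17lib

open Finsupp

variable {Pl : Type*}

/-- degree of an effective divisor (all points have degree one) -/
def degE (D : Pl →₀ ℕ) : ℕ := D.sum fun _ n => n

/-- additive height of an effective divisor -/
def hE (ht : Pl → ℝ) (D : Pl →₀ ℕ) : ℝ := D.sum fun P n => (n : ℝ) * ht P

theorem degE_add (D E : Pl →₀ ℕ) : degE (D + E) = degE D + degE E :=
  Finsupp.sum_add_index' (fun _ => rfl) (fun _ _ _ => rfl)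

theorem hE_add (ht : Pl → ℝ) (D E : Pl →₀ ℕ) : hE ht (D + E) = hE ht D + hE ht E :=
  Finsupp.sum_add_index' (fun P => by simp) (fun P a b => by push_cast; ring)

theorem degE_single (P : Pl) (n : ℕ) : degE (Finsupp.single P n) = n := by
  simp [degE]

theorem hE_single (ht : Pl → ℝ) (P : Pl) (n : ℕ) : hE ht (Finsupp.single P n) = n * ht P := by
  simp [hE]

theorem degE_nsmul (n : ℕ) (D : Pl →₀ ℕ) : degE (n • D) = n * degE D := by
  induction n with
  | zero => simp [degE]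
  | succ n ih => rw [succ_nsmul, degE_add, ih]; ring

theorem hE_nsmul (ht : Pl → ℝ) (n : ℕ) (D : Pl →₀ ℕ) : hE ht (n • D) = n * hE ht D := by
  induction n with
  | zero => simp [hE]
  | succ n ih => rw [succ_nsmul, hE_add, ih]; push_cast; ring

theorem hE_nonneg (ht : Pl → ℝ) (hht : ∀ P, 0 ≤ ht P) (D : Pl →₀ ℕ) : 0 ≤ hE ht D :=
  Finset.sum_nonneg fun P _ => mul_nonneg (Nat.cast_nonneg _) (hht P)

/-- the divisor `∑ n_P · E_P` -/
def spread (Ef : Pl → (Pl →₀ ℕ)) (D : Pl →₀ ℕ) : Pl →₀ ℕ := D.sum fun P n => n • Ef P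

theorem spread_zero (Ef : Pl → (Pl →₀ ℕ)) : spread Ef 0 = 0 := by simp [spread]

theorem spread_single_add [DecidableEq Pl] (Ef : Pl → (Pl →₀ ℕ)) (P : Pl) (n : ℕ)
    (D : Pl →₀ ℕ) : spread Ef (Finsupp.single P n + D) = n • Ef P + spread Ef D := by
  unfold spread
  rw [Finsupp.sum_add_index' (h := fun P n => n • Ef P) (fun P => zero_nsmul (Ef P))
    (fun P a b => add_nsmul (Ef P) a b), Finsupp.sum_single_index (zero_nsmul (Ef P))]

section

variable {J : Type*} [AddCommGroup J]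

/-- **the expansion estimate** from (RED), (CM), (TORS) -/
theorem expansion_of_blocks (ht : Pl → ℝ)
    (cls : (Pl →₀ ℕ) →+ J) (h : J → ℝ) (g n₀ m : ℕ) (hn₀ : g * g + g ≤ n₀)
    (hcan : ∀ w : J, ∃ D : Pl →₀ ℕ, cls D = w ∧ degE D ≤ g ∧ h w = hE ht D)
    {A B κ C : ℝ} (hA : 0 ≤ A) (hC : 0 ≤ C)
    (hred : ∀ D : Pl →₀ ℕ, degE D ≤ n₀ → h (cls D) ≤ A * hE ht D + B)
    (hcm : ∀ P : Pl, ∃ E : Pl →₀ ℕ, degE E ≤ g ∧ m • cls E = cls (Finsupp.single P 1) ∧
      hE ht E ≤ κ * ht P + C)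
    (htors : {T : J | m • T = 0}.Finite) :
    ∃ c' : ℝ, ∀ x : J, h x ≤ A * κ * h (m • x) + c' := by
  classical
  -- a bound for the heights of the `m`-torsion classes
  obtain ⟨M, hM⟩ : ∃ M : ℝ, ∀ T : J, m • T = 0 → h T ≤ M := by
    obtain ⟨M, hM⟩ := (htors.image h).bddAbove
    exact ⟨M, fun T hT => hM ⟨T, hT, rfl⟩⟩
  choose Ef hEf using hcm
  -- properties of `spread`
  have hsp : ∀ D : Pl →₀ ℕ, m • cls (spread Ef D) = cls D ∧ degE (spread Ef D) ≤ g * degE D ∧
      hE ht (spread Ef D) ≤ κ * hE ht D + C * degE D := by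
    intro D
    induction D using Finsupp.induction with
    | zero =>
      rw [spread_zero]
      simp [degE, hE]
    | single_add P n D _ _ ih =>
      obtain ⟨ih1, ih2, ih3⟩ := ih
      obtain ⟨e1, e2, e3⟩ := hEf P
      rw [spread_single_add]
      refine ⟨?_, ?_, ?_⟩
      · rw [map_add, map_add, nsmul_add, ih1, map_nsmul, ← mul_nsmul, mul_comm, mul_nsmul, e2,
          ← map_nsmul, Finsupp.smul_single, smul_eq_mul, mul_one]
      · rw [degE_add, degE_add, degE_nsmul, degE_single]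
        have : n * degE (Ef P) ≤ n * g := Nat.mul_le_mul_left n e1
        nlinarith
      · rw [hE_add, hE_add, hE_nsmul, hE_single, degE_add, degE_single]
        have h1 : (n : ℝ) * hE ht (Ef P) ≤ n * (κ * ht P + C) :=
          mul_le_mul_of_nonneg_left e3 (Nat.cast_nonneg n)
        push_cast
        nlinarith
  refine ⟨A * (C * g + M) + B, fun x => ?_⟩
  obtain ⟨Dw, hDw, hdeg, hh⟩ := hcan (m • x)
  obtain ⟨s1, s2, s3⟩ := hsp Dw
  -- the torsion defect
  set T : J := x - cls (spread Ef Dw) with hT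
  have hTm : m • T = 0 := by rw [hT, nsmul_sub, s1, hDw, sub_self]
  obtain ⟨DT, hDT, hdegT, hhT⟩ := hcan T
  have hx : x = cls (spread Ef Dw + DT) := by rw [map_add, hDT, hT]; abel
  have hdegtot : degE (spread Ef Dw + DT) ≤ n₀ := by
    rw [degE_add]
    have : g * degE Dw ≤ g * g := Nat.mul_le_mul_left g hdeg
    omega
  have h1 := hred _ hdegtot
  rw [← hx, hE_add, ← hhT] at h1
  have h2 := hM T hTm
  have h3 : (degE Dw : ℝ) ≤ g := by exact_mod_cast hdeg
  have h4 : C * (degE Dw : ℝ) ≤ C * g := mul_le_mul_of_nonneg_left h3 hC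
  rw [hh]
  have h5 : A * (hE ht (spread Ef Dw) + h T) ≤ A * ((κ * hE ht Dw + C * g) + M) :=
    mul_le_mul_of_nonneg_left (by linarith) hA
  linarith

/-- **the translation estimate** from (RED) -/
theorem translation_of_blocks (ht : Pl → ℝ)
    (cls : (Pl →₀ ℕ) →+ J) (h : J → ℝ) (g n₀ : ℕ) (hn₀ : g + g ≤ n₀)
    (hcan : ∀ w : J, ∃ D : Pl →₀ ℕ, cls D = w ∧ degE D ≤ g ∧ h w = hE ht D)
    {A B : ℝ}
    (hred : ∀ D : Pl →₀ ℕ, degE D ≤ n₀ → h (cls D) ≤ A * hE ht D + B) (g₀ x : J) :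
    h x ≤ A * h (g₀ + x) + (A * h (-g₀) + B) := by
  obtain ⟨D₁, hD₁, hdeg₁, hh₁⟩ := hcan (g₀ + x)
  obtain ⟨D₂, hD₂, hdeg₂, hh₂⟩ := hcan (-g₀)
  have hx : x = cls (D₁ + D₂) := by rw [map_add, hD₁, hD₂]; abel
  have hdeg : degE (D₁ + D₂) ≤ n₀ := by rw [degE_add]; omega
  have h1 := hred _ hdeg
  rw [← hx, hE_add, ← hh₁, ← hh₂] at h1
  linarith

/-- **Mordell–Weil from the five blocks.** -/
theorem fg_of_blocks (G : AddSubgroup J) (ht : Pl → ℝ)
    (cls : (Pl →₀ ℕ) →+ J) (h : J → ℝ) (g n₀ m : ℕ) (hn₀ : g * g + g ≤ n₀) (hg : 1 ≤ g)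
    (hcan : ∀ w : J, ∃ D : Pl →₀ ℕ, cls D = w ∧ degE D ≤ g ∧ h w = hE ht D)
    {A B κ C : ℝ} (hA : 0 < A) (hκ : 0 < κ) (hC : 0 ≤ C) (hAκ : A * κ < 1)
    (hred : ∀ D : Pl →₀ ℕ, degE D ≤ n₀ → h (cls D) ≤ A * hE ht D + B)
    (hcm : ∀ P : Pl, ∃ E : Pl →₀ ℕ, degE E ≤ g ∧ m • cls E = cls (Finsupp.single P 1) ∧
      hE ht E ≤ κ * ht P + C)
    (htors : {T : J | m • T = 0}.Finite)
    (hwmw : (nsmulAddMonoidHom (α := G) m).range.FiniteIndex)
    (hnc : ∀ B' : ℝ, {x : G | h (x : J) ≤ B'}.Finite) : AddGroup.FG G := by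
  obtain ⟨c', hc'⟩ := expansion_of_blocks ht cls h g n₀ m hn₀ hcan hA.le hC hred hcm htors
  have hAκ0 : 0 < A * κ := mul_pos hA hκ
  have hgg : g + g ≤ n₀ := by nlinarith
  have : Northcott (fun x : G => h (x : J)) := ⟨hnc⟩
  refine fg_of_descent_bootstrap (G := G) (m := m) (h := fun x : G => h (x : J)) (a := A)
    (b := (A * κ)⁻¹) (c₀ := (A * κ)⁻¹ * c') (c := fun g₀ : G => A * h (-(g₀ : J)) + B)
    hA.le ?_ hwmw ?_ ?_
  · rw [one_lt_inv₀ hAκ0]
    exact hAκ
  · intro g₀ x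
    have := translation_of_blocks ht cls h g n₀ hgg hcan hred (g₀ : J) (x : J)
    simpa using this
  · intro x
    have h1 := hc' (x : J)
    have h2 : ((m • x : G) : J) = m • (x : J) := by simp
    show (A * κ)⁻¹ * h (x : J) - (A * κ)⁻¹ * c' ≤ h ((m • x : G) : J)
    rw [h2, ← mul_sub, inv_mul_le_iff₀ hAκ0]
    linarith

end

end Fermat.Agent.S17lib
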