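/-
S17lib/Iface.lean  (Project G, Phase 0, version 2; chief architect helper7)

The CONCRETE top of Project G: the frozen S17 conclusion from six block statements, through
helper3's abstract assembly `Blocks.fg_of_blocks` and helper9's `Descent.fg_of_descent_bootstrap`.

Objects (generic function field `F / K`, base place `inf`, all places of degree one):
* `Pl inf`            the points = places other than `inf`; effective divisors = `Pl inf →₀ ℕ`;
* `cls inf hdeg`      `D ↦ [D - (deg D) inf] : (Pl inf →₀ ℕ) →+ Pic0 K F`;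
* `ptHeight hK t P`   `= hK (t(P))`, `hK : K → ℝ` the absolute height on `K = ℚ̄` (block HT owns it),
                      `t ∈ F` a fixed function (poles only at `inf` is what the blocks will assume);
* `IsInfReduced c D`  `D` is the unique representative of its class of degree `≤ deg D`
                      (equivalently `ℓ(D) = 1`: the `inf`-reduced representative);
* `classHeight ht c w` the additive height `hE ht D` of the `inf`-reduced representative of `w`.

Blocks:  CAN (reduced representatives exist in degree ≤ g: Riemann-Roch),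
         RED (ONE crude reduction bound in degree ≤ g² + g),
         CM  (for every κ some odd m such that every point class has an m-division point with a
              representative of height ≤ κ ht P + C:  = SPEC + DEG + FIB/CRV),
         TORS (S27), WMW (odd m), NC (Northcott on the subgroup).
-/
import Fermat.Agent.S17lib.Blocks
import Fermat.Prelude.Def_AlgebraicCurve_DivisorClassGroup
import Fermat.Prelude.Def_ModularCurve_ArithmeticGalois

set_option autoImplicit false

open AlgebraicCurve

namespace Fermat.Agent.S17lib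

noncomputable section

/-! ### Abstract part: reduced representatives and the class height -/

section abstract

variable {Pl J : Type*} [AddCommGroup J]

/-- `D` is the unique effective representative of its class among those of degree `≤ deg D`. -/
def IsInfReduced (c : (Pl →₀ ℕ) →+ J) (D : Pl →₀ ℕ) : Prop :=
  ∀ D' : Pl →₀ ℕ, degE D' ≤ degE D → c D' = c D → D' = D

/-- The height of a class: the additive height of its reduced representative. -/
def classHeight (ht : Pl → ℝ) (c : (Pl →₀ ℕ) →+ J) (w : J) : ℝ :=
  sInf (hE ht '' {D | c D = w ∧ IsInfReduced c D})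

theorem classHeight_eq (ht : Pl → ℝ) (c : (Pl →₀ ℕ) →+ J) {w : J} {D : Pl →₀ ℕ}
    (h1 : c D = w) (h2 : IsInfReduced c D) : classHeight ht c w = hE ht D := by
  have hset : {D' | c D' = w ∧ IsInfReduced c D'} = {D} := by
    ext D'
    simp only [Set.mem_setOf_eq, Set.mem_singleton_iff]
    constructor
    · rintro ⟨h1', h2'⟩
      rcases le_total (degE D') (degE D) with hle | hle
      · exact h2 D' hle (h1'.trans h1.symm)
      · exact (h2' D hle (h1.trans h1'.symm)).symm
    · rintro rfl
      exact ⟨h1, h2⟩
  rw [classHeight, hset, Set.image_singleton, csInf_singleton]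

/-- CAN: every class has a reduced representative of degree `≤ g`. -/
def CAN (c : (Pl →₀ ℕ) →+ J) (g : ℕ) : Prop :=
  ∀ w : J, ∃ D : Pl →₀ ℕ, c D = w ∧ degE D ≤ g ∧ IsInfReduced c D

/-- RED: one crude reduction bound for effective divisors of degree `≤ g² + g`. -/
def RED (ht : Pl → ℝ) (c : (Pl →₀ ℕ) →+ J) (g : ℕ) : Prop :=
  ∃ A B : ℝ, 0 < A ∧ ∀ D : Pl →₀ ℕ, degE D ≤ g * g + g →
    classHeight ht c (c D) ≤ A * hE ht D + B

/-- CM: for every `κ > 0` there is an odd `m` such that every point class `[P - inf]` has an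
`m`-division point with an effective representative of degree `≤ g` and height `≤ κ ht P + C`. -/
def CM (ht : Pl → ℝ) (c : (Pl →₀ ℕ) →+ J) (g : ℕ) : Prop :=
  ∀ κ : ℝ, 0 < κ → ∃ m : ℕ, Odd m ∧ ∃ C : ℝ, 0 ≤ C ∧ ∀ P : Pl, ∃ E : Pl →₀ ℕ,
    degE E ≤ g ∧ m • c E = c (Finsupp.single P 1) ∧ hE ht E ≤ κ * ht P + C

/-- TORS: finite torsion. -/
def TORS (J : Type*) [AddCommGroup J] : Prop := ∀ m : ℕ, 1 ≤ m → {T : J | m • T = 0}.Finite

/-- WMW: weak Mordell-Weil for odd `m`. -/
def WMW (G : AddSubgroup J) : Prop :=
  ∀ m : ℕ, Odd m → (nsmulAddMonoidHom (α := G) m).range.FiniteIndex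

/-- NC: Northcott on the subgroup `G`. -/
def NC (ht : Pl → ℝ) (c : (Pl →₀ ℕ) →+ J) (G : AddSubgroup J) : Prop :=
  ∀ B' : ℝ, {x : G | classHeight ht c (x : J) ≤ B'}.Finite

theorem fg_of_concrete_blocks (G : AddSubgroup J) (ht : Pl → ℝ) (c : (Pl →₀ ℕ) →+ J) (g : ℕ)
    (hg : 1 ≤ g) (hCAN : CAN c g) (hRED : RED ht c g) (hCM : CM ht c g) (hTORS : TORS J)
    (hWMW : WMW G) (hNC : NC ht c G) : AddGroup.FG G := by
  obtain ⟨A, B, hA, hred⟩ := hRED
  obtain ⟨m, hm, C, hC, hcm⟩ := hCM (1 / (2 * A)) (by positivity)
  refine fg_of_blocks G ht c (classHeight ht c) g (g * g + g) m le_rfl hg ?_ hA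
    (κ := 1 / (2 * A)) (C := C) (B := B) (by positivity) hC ?_ hred hcm
    (hTORS m hm.pos) (hWMW m hm) hNC
  · intro w
    obtain ⟨D, h1, h2, h3⟩ := hCAN w
    exact ⟨D, h1, h2, classHeight_eq ht c h1 h3⟩
  · have : A * (1 / (2 * A)) = 1 / 2 := by field_simp
    rw [this]; norm_num

end abstract

/-! ### The concrete objects for a function field -/

section concrete

variable {K F : Type*} [Field K] [Field F] [Algebra K F]

/-- The points: places other than the base place `inf`. -/
abbrev Pl (inf : Place K F) : Type _ := {P : Place K F // P ≠ inf}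

/-- The degree-zero divisor `P - inf`. -/
def ptDiv (inf : Place K F) (hdeg : ∀ P : Place K F, P.deg = 1) (P : Place K F) :
    Divisor.degZero (K := K) (F := F) :=
  ⟨Finsupp.single P 1 - Finsupp.single inf 1, by
    rw [Divisor.mem_degZero, map_sub, Divisor.degree_single, Divisor.degree_single, hdeg, hdeg]
    simp⟩

/-- The class map `D ↦ [D - (deg D) inf]`. -/
def cls (inf : Place K F) (hdeg : ∀ P : Place K F, P.deg = 1) : (Pl inf →₀ ℕ) →+ Pic0 K F :=
  Finsupp.liftAddHom fun P : Pl inf => multiplesHom (Pic0 K F) (Pic0.mk (ptDiv inf hdeg P.1))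

theorem cls_single (inf : Place K F) (hdeg : ∀ P : Place K F, P.deg = 1) (P : Pl inf) (n : ℕ) :
    cls inf hdeg (Finsupp.single P n) = n • Pic0.mk (ptDiv inf hdeg P.1) := by
  simp [cls]

/-- `t` takes the (finite) value `a` at the place `P`. -/
def HasValueAt (P : Place K F) (t : F) (a : K) : Prop :=
  t = algebraMap K F a ∨ 0 < P.ord (t - algebraMap K F a)

/-- The value of `t` at the place `P` (junk value `0` at the poles of `t`). -/
def valueAt (P : Place K F) (t : F) : K :=
  open Classical in
  if h : ∃ c : K, HasValueAt P t c then h.choose else 0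

/-- The height of a point: the absolute height `hK` of the value of `t`. -/
def ptHeight (hK : K → ℝ) (t : F) (inf : Place K F) (P : Pl inf) : ℝ := hK (valueAt P.1 t)

end concrete

/-! ### The frozen statement S17 -/

/-- S17 from the six blocks, for ANY choice of the absolute height `hK` on `ℚ̄`, of the function
`t`, of the base place `inf` and of the bound `g ≥ 1`. -/
theorem s17_of_blocks (N : ℕ) [NeZero N]
    (hK : AlgebraicClosure ℚ → ℝ)
    (t : ↥(ModularCurve.modularFunctionFieldBar N))
    (inf : Place (AlgebraicClosure ℚ) ↥(ModularCurve.modularFunctionFieldBar N))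
    (hdeg : ∀ P : Place (AlgebraicClosure ℚ) ↥(ModularCurve.modularFunctionFieldBar N), P.deg = 1)
    (g : ℕ) (hg : 1 ≤ g)
    (hCAN : CAN (cls inf hdeg) g)
    (hRED : RED (ptHeight hK t inf) (cls inf hdeg) g)
    (hCM : CM (ptHeight hK t inf) (cls inf hdeg) g)
    (hTORS : TORS (ModularCurve.JZero N))
    (hWMW : WMW (FixedPoints.addSubgroup
      ((AlgebraicClosure ℚ) ≃ₐ[ℚ] (AlgebraicClosure ℚ)) (ModularCurve.JZero N)))
    (hNC : NC (ptHeight hK t inf) (cls inf hdeg) (FixedPoints.addSubgroup
      ((AlgebraicClosure ℚ) ≃ₐ[ℚ] (AlgebraicClosure ℚ)) (ModularCurve.JZero N))) :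
    AddGroup.FG ↥(FixedPoints.addSubgroup
      ((AlgebraicClosure ℚ) ≃ₐ[ℚ] (AlgebraicClosure ℚ)) (ModularCurve.JZero N)) :=
  fg_of_concrete_blocks _ (ptHeight hK t inf) (cls inf hdeg) g hg hCAN hRED hCM hTORS hWMW hNC

end

end Fermat.Agent.S17lib
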