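/-
S17lib/Glue.lean  (Project G; chief architect helper7)

The CONSUMER shape of the geometric heart of Project G and the formal glue

    `cm_of_gendiv :  CAN → RED → (Pic0 divisible) → (∀ L, CRV hK L) → (∀ odd m, GENDIV inf hdeg g m)
                       →  CM (ptHeight hK t inf) (cls inf hdeg) g`.

`GENDIV inf hdeg g m` (generic division point of order `m`; PURELY GEOMETRIC: no height, no `t`)
asks for: a field `L ⊇ K` (the function field of a curve `X`, in practice a finite extension of `F`
inside an algebraic closure of `F`), the tautological point `η : F →ₐ[K] L`, at most `g` further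
NON-CONSTANT points `σ j : F →ₐ[K] L` of the curve over `L`, a CONSTANT class `b₀ ∈ Pic0 K F` (the
class of the constant points of the generic division divisor, and/or of a generic constant base
divisor `B - g inf` used to avoid degenerate positions) and a finite exceptional set `S` of places of
`F` such that

* (SPEC)  for every place `P ∉ S` of `F` there are a place `x` of `L` over `P` (along `η`) and places
          `Q j` of `F` under `x` along `σ j` (the specialisations of the `L`-points `σ j` at `x`) with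
          `m • (b₀ + ∑ j, [Q j - inf]) = [P - inf]`; a point specialising to `inf` contributes `0`;
          "`x` lies over `Q` along `φ`" is `LiesOver φ x Q : ∀ f, f ∈ 𝒪_Q ↔ φ f ∈ 𝒪_x` (for the
          Prelude's `Place.restrictAlong` this is `liesOver_restrictAlong`); ONE `x` per `P` suffices;
* (DEG)   `m² · ∑ j [L : σ j F] ≤ g · [L : η F]`            (helper4/helper6's exact inequality).

The height comparison enters through `CRV hK L` (helper8: `CRV.crv_chief L : CRV HT.h1 L` for EVERY
field `L` over `ℚ̄`), applied to `u = σ j t`, `w = η t` via the tower law `funDeg_map`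
(`crvClause_of_CRV`).

No reducedness of the specialised divisor, no irreducibility of `[m]⁻¹(C)`, no information on the
other division points is needed: `CM` asks for ONE division point per `P` with a small effective
representative of degree `≤ g`; the constant translation by `b₀` is absorbed by ONE application of
`RED` (whose constant `A` does not depend on `m`).
-/
import Fermat.Agent.S17lib.Iface
import Fermat.Prelude.Def_AlgebraicCurve_Correspondence
import Fermat.Agent.S37lib.ES.JVal

set_option autoImplicit false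

open AlgebraicCurve

namespace Fermat.Agent.S17lib

noncomputable section


/-! ### Finite sums of effective divisors -/

section sums

variable {Pl : Type*}

theorem degE_finset_sum {ι : Type*} (s : Finset ι) (f : ι → Pl →₀ ℕ) :
    degE (∑ i ∈ s, f i) = ∑ i ∈ s, degE (f i) := by
  classical
  induction s using Finset.induction_on with
  | empty => simp [degE]
  | insert a s ha ih => rw [Finset.sum_insert ha, Finset.sum_insert ha, degE_add, ih]

theorem hE_finset_sum (ht : Pl → ℝ) {ι : Type*} (s : Finset ι) (f : ι → Pl →₀ ℕ) :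
    hE ht (∑ i ∈ s, f i) = ∑ i ∈ s, hE ht (f i) := by
  classical
  induction s using Finset.induction_on with
  | empty => simp [hE]
  | insert a s ha ih => rw [Finset.sum_insert ha, Finset.sum_insert ha, hE_add, ih]

end sums

section glue

universe u v w

variable {K : Type u} {F : Type v} [Field K] [Field F] [Algebra K F]

/-- The value of a function at a place is unique. -/
theorem HasValueAt.unique {P : Place K F} {t : F} {a b : K} (ha : HasValueAt P t a)
    (hb : HasValueAt P t b) : a = b := by
  rcases ha with ha | ha <;> rcases hb with hb | hb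
  · exact (algebraMap K F).injective (ha.symm.trans hb)
  · by_contra hne
    rw [ha, ← map_sub, Fermat.Agent.S18lib.Cech.ord_const] at hb
    exact lt_irrefl _ hb
  · by_contra hne
    rw [hb, ← map_sub, Fermat.Agent.S18lib.Cech.ord_const] at ha
    exact lt_irrefl _ ha
  · exact Fermat.Agent.S37lib.ES.eq_of_ord_sub_pos ha hb

theorem valueAt_eq {P : Place K F} {t : F} {c : K} (h : HasValueAt P t c) : valueAt P t = c := by
  have hex : ∃ c : K, HasValueAt P t c := ⟨c, h⟩
  unfold valueAt
  rw [dif_pos hex]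
  exact HasValueAt.unique hex.choose_spec h

/-- At a place of degree one every regular function has a value. -/
theorem exists_hasValueAt {P : Place K F} (hP : P.deg = 1) {t : F} (ht : 0 ≤ P.ord t) :
    ∃ c : K, HasValueAt P t c := by
  obtain ⟨c, hc⟩ := Fermat.Agent.S37lib.B3.exists_value P hP ht
  refine ⟨c, ?_⟩
  rcases hc with hc | hc
  · exact Or.inl (sub_eq_zero.mp hc)
  · exact Or.inr hc

/-- The place `x` of `L` lies over the place `Q` of `F` along `φ : F → L`. -/
def LiesOver {L : Type w} [Field L] [Algebra K L] (φ : F →ₐ[K] L) (x : Place K L)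
    (Q : Place K F) : Prop :=
  ∀ f : F, f ∈ Q.toValuationSubring ↔ φ f ∈ x.toValuationSubring

theorem liesOver_restrictAlong {L : Type w} [Field L] [Algebra K L] (σ : F →ₐ[K] L)
    (hσ : σ.toRingHom.IsIntegral) (x : Place K L) : LiesOver σ x (x.restrictAlong σ hσ) :=
  fun _ => Iff.rfl

section liesOver

variable {L : Type w} [Field L] [Algebra K L] {φ : F →ₐ[K] L} {x : Place K L} {Q : Place K F}

theorem LiesOver.ord_nonneg_iff (h : LiesOver φ x Q) (f : F) : 0 ≤ Q.ord f ↔ 0 ≤ x.ord (φ f) := by
  rw [← Fermat.Agent.ProgramR.FF.mem_iff_ord_nonneg, ← Fermat.Agent.ProgramR.FF.mem_iff_ord_nonneg]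
  exact h f

theorem LiesOver.ord_pos_iff (h : LiesOver φ x Q) (f : F) : 0 < Q.ord f ↔ 0 < x.ord (φ f) := by
  have h1 := h.ord_nonneg_iff f⁻¹
  rw [map_inv₀, Place.ord_inv, Place.ord_inv] at h1
  constructor
  · intro hf
    by_contra hn
    have : 0 ≤ -Q.ord f := h1.mpr (by omega)
    omega
  · intro hf
    by_contra hn
    have : 0 ≤ -x.ord (φ f) := h1.mp (by omega)
    omega

theorem LiesOver.hasValueAt_iff (h : LiesOver φ x Q) (t : F) (c : K) :
    HasValueAt Q t c ↔ HasValueAt x (φ t) c := by
  unfold HasValueAt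
  have h1 := h.ord_pos_iff (t - algebraMap K F c)
  rw [map_sub, AlgHom.commutes] at h1
  refine or_congr ?_ h1
  constructor
  · intro h
    rw [h, AlgHom.commutes]
  · intro h
    apply φ.toRingHom.injective
    simpa using h

/-- The value of `φ t` at a place `x` of `L` is the value of `t` at the place under `x`. -/
theorem LiesOver.valueAt_comp (h : LiesOver φ x Q) (t : F) : valueAt Q t = valueAt x (φ t) := by
  by_cases hex : ∃ c : K, HasValueAt x (φ t) c
  · obtain ⟨c, hc⟩ := hex
    rw [valueAt_eq hc, valueAt_eq ((h.hasValueAt_iff t c).mpr hc)]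
  · have h' : ¬ ∃ c : K, HasValueAt Q t c := fun ⟨c, hc⟩ =>
      hex ⟨c, (h.hasValueAt_iff t c).mp hc⟩
    unfold valueAt
    rw [dif_neg hex, dif_neg h']

end liesOver

theorem valueAt_restrictAlong {L : Type w} [Field L] [Algebra K L] (σ : F →ₐ[K] L)
    (hσ : σ.toRingHom.IsIntegral) (x : Place K L) (t : F) :
    valueAt (x.restrictAlong σ hσ) t = valueAt x (σ t) :=
  (liesOver_restrictAlong σ hσ x).valueAt_comp t

theorem ord_nonneg_of_restrictAlong {L : Type w} [Field L] [Algebra K L] (σ : F →ₐ[K] L)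
    (hσ : σ.toRingHom.IsIntegral) (x : Place K L) {t : F}
    (h : 0 ≤ (x.restrictAlong σ hσ).ord t) : 0 ≤ x.ord (σ t) :=
  ((liesOver_restrictAlong σ hσ x).ord_nonneg_iff t).mp h

/-- The effective divisor of a place: `0` for `inf`, the point otherwise. -/
def ptE (inf : Place K F) (Q : Place K F) : Pl inf →₀ ℕ :=
  open Classical in if h : Q = inf then 0 else Finsupp.single ⟨Q, h⟩ 1

theorem degE_ptE_le (inf Q : Place K F) : degE (ptE inf Q) ≤ 1 := by
  unfold ptE
  split_ifs with h
  · simp [degE]
  · rw [degE_single]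

theorem cls_ptE (inf : Place K F) (hdeg : ∀ P : Place K F, P.deg = 1) (Q : Place K F) :
    cls inf hdeg (ptE inf Q) = Pic0.mk (ptDiv inf hdeg Q) := by
  unfold ptE
  split_ifs with h
  · subst h
    rw [map_zero]
    have : ptDiv Q hdeg Q = 0 := by
      apply Subtype.ext
      simp [ptDiv]
    rw [this, Pic0.mk_zero]
  · rw [cls_single, one_nsmul]

theorem hE_ptE_of_eq (ht : Place K F → ℝ) (inf : Place K F) {Q : Place K F} (h : Q = inf) :
    hE (fun P : Pl inf => ht P.1) (ptE inf Q) = 0 := by
  unfold ptE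
  rw [dif_pos h]
  simp [hE]

theorem hE_ptE_of_ne (ht : Place K F → ℝ) (inf : Place K F) {Q : Place K F} (h : Q ≠ inf) :
    hE (fun P : Pl inf => ht P.1) (ptE inf Q) = ht Q := by
  unfold ptE
  rw [dif_neg h, hE_single]
  simp

/-! ### The height comparison on one function field, in the shape helper8 proves it -/

/-- The degree of a function `u ∈ L`: `[L : K(u)]` (`0` for constants).  For `K` algebraically
closed this is the degree of the pole divisor (`S18lib.Weak.degree_polesOf_eq_finrank_adjoin`). -/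
def funDeg (K : Type u) {L : Type w} [Field K] [Field L] [Algebra K L] (u : L) : ℕ :=
  Module.finrank (IntermediateField.adjoin K {u}) L

/-- Tower law: `deg (σ t) = deg t · [L : σ F]`. -/
theorem funDeg_map {L : Type w} [Field L] [Algebra K L] (σ : F →ₐ[K] L) (t : F) :
    funDeg K (σ t) = funDeg K t * finrankAlong K σ := by
  letI := algebraAlong σ
  haveI := isScalarTower_along σ
  have h1 := Module.finrank_mul_finrank (IntermediateField.adjoin K {t}) F L
  unfold funDeg finrankAlong
  rw [h1]
  have hmap : (IntermediateField.adjoin K {t}).map σ = IntermediateField.adjoin K {σ t} := by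
    rw [IntermediateField.adjoin_map, Set.image_singleton]
  symm
  refine (Algebra.finrank_eq_of_equiv_equiv
    (((IntermediateField.adjoin K {t}).equivMap σ).toRingEquiv.trans
      (IntermediateField.equivOfEq hmap).toRingEquiv) (RingEquiv.refl L) ?_)
  ext a
  rfl

/-- **CRV** (block owner helper8): height comparison by degrees on the ONE function field `L`. -/
def CRV (hK : K → ℝ) (L : Type w) [Field L] [Algebra K L] : Prop :=
  ∀ u w : L, 0 < funDeg K w → ∀ ε : ℝ, 0 < ε → ∃ C : ℝ, ∀ x : Place K L,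
    0 ≤ x.ord u → 0 ≤ x.ord w →
    hK (valueAt x u) ≤ ((funDeg K u : ℝ) / (funDeg K w : ℝ) + ε) * hK (valueAt x w) + C

/-- The (CRV) clause of `GENDIV` from `CRV` on `L` and the tower law. -/
theorem crvClause_of_CRV (hK : K → ℝ) (t : F) (ht : 0 < funDeg K t) {L : Type w} [Field L]
    [Algebra K L] (hCRV : CRV hK L) (η : F →ₐ[K] L) (hη : 0 < finrankAlong K η) {d : ℕ}
    (σ : Fin d → (F →ₐ[K] L)) :
    ∀ ε : ℝ, 0 < ε → ∃ C : ℝ, ∀ (x : Place K L) (j : Fin d),
      0 ≤ x.ord (σ j t) → 0 ≤ x.ord (η t) →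
      hK (valueAt x (σ j t)) ≤
        ((finrankAlong K (σ j) : ℝ) / (finrankAlong K η : ℝ) + ε) * hK (valueAt x (η t))
          + C := by
  intro ε hε
  have hw : 0 < funDeg K (η t) := by
    rw [funDeg_map]
    exact Nat.mul_pos ht hη
  choose Cf hCf using fun j : Fin d => hCRV (σ j t) (η t) hw ε hε
  refine ⟨∑ j, |Cf j|, fun x j h1 h2 => ?_⟩
  have h3 := hCf j x h1 h2
  have hratio : (funDeg K (σ j t) : ℝ) / (funDeg K (η t) : ℝ) =
      (finrankAlong K (σ j) : ℝ) / (finrankAlong K η : ℝ) := by
    rw [funDeg_map, funDeg_map]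
    push_cast
    have ht' : (funDeg K t : ℝ) ≠ 0 := by exact_mod_cast ht.ne'
    have hη' : (finrankAlong K η : ℝ) ≠ 0 := by exact_mod_cast hη.ne'
    field_simp
  rw [hratio] at h3
  have h4 : Cf j ≤ ∑ j, |Cf j| :=
    (le_abs_self _).trans (Finset.single_le_sum (f := fun j => |Cf j|)
      (fun i _ => abs_nonneg _) (Finset.mem_univ j))
  linarith

/-! ### GENDIV and the glue -/

/-- **GENDIV**: the generic division point of order `m`, in the shape consumed by `CM`; purely
geometric.  `b₀` is an arbitrary CONSTANT class (e.g. `[B - g inf]` for a generic constant base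
divisor `B`, and/or the class of the constant points of the generic division divisor); `S` a finite
set of exceptional places. -/
def GENDIV (inf : Place K F) (hdeg : ∀ P : Place K F, P.deg = 1) (g m : ℕ) : Prop :=
  ∃ (L : Type w) (_ : Field L) (_ : Algebra K L)
    (η : F →ₐ[K] L) (d : ℕ) (σ : Fin d → (F →ₐ[K] L))
    (b₀ : Pic0 K F) (S : Set (Place K F)),
    d ≤ g ∧ S.Finite ∧ 0 < finrankAlong K η ∧
    -- (SPEC)
    (∀ P : Place K F, P ∉ S → ∃ (x : Place K L) (Q : Fin d → Place K F),
      LiesOver η x P ∧ (∀ j, LiesOver (σ j) x (Q j)) ∧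
      m • (b₀ + ∑ j, Pic0.mk (ptDiv inf hdeg (Q j))) = Pic0.mk (ptDiv inf hdeg P)) ∧
    -- (DEG)
    m ^ 2 * ∑ j, finrankAlong K (σ j) ≤ g * finrankAlong K η

/-- **The glue**: `CM` from the generic division points of all odd orders and the height comparison
`CRV`.  The constant translation `b₀` costs one application of `RED` (its constant `A` is
independent of `m`, so it is absorbed by the choice of `m`); the exceptional places are handled by
plain divisibility (`hDIV`: S15lib U1) and `CAN`. -/
theorem cm_of_gendiv (hK : K → ℝ) (hK0 : ∀ a, 0 ≤ hK a) (t : F) (htdeg : 0 < funDeg K t)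
    (inf : Place K F)
    (hdeg : ∀ P : Place K F, P.deg = 1) (ht : ∀ Q : Place K F, Q ≠ inf → 0 ≤ Q.ord t)
    (g : ℕ) (hg : 1 ≤ g) (hCAN : CAN (cls inf hdeg) g)
    (hRED : RED (ptHeight hK t inf) (cls inf hdeg) g)
    (hDIV : ∀ m : ℕ, 1 ≤ m → ∀ y : Pic0 K F, ∃ z : Pic0 K F, m • z = y)
    (hCRV : ∀ (L : Type w) [Field L] [Algebra K L], CRV hK L)
    (H : ∀ m : ℕ, Odd m → GENDIV.{u, v, w} inf hdeg g m) :
    CM (ptHeight hK t inf) (cls inf hdeg) g := by
  classical
  obtain ⟨A, B, hA, hred⟩ := hRED
  intro κ hκ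
  have hgpos : (0 : ℝ) < g := by exact_mod_cast hg
  obtain ⟨κ', hκ'def⟩ : ∃ κ' : ℝ, κ' = κ / A := ⟨_, rfl⟩
  have hκ' : 0 < κ' := by rw [hκ'def]; exact div_pos hκ hA
  have hAκ' : A * κ' = κ := by rw [hκ'def]; field_simp
  -- the order `m`
  obtain ⟨n, hn⟩ := exists_nat_ge (2 * (g : ℝ) / κ')
  have hmodd : Odd (2 * n + 1) := ⟨n, rfl⟩
  have hm1 : (1 : ℝ) ≤ ((2 * n + 1 : ℕ) : ℝ) := by
    exact_mod_cast (by omega : 1 ≤ 2 * n + 1)
  have hmk : 2 * (g : ℝ) / κ' ≤ ((2 * n + 1 : ℕ) : ℝ) := by
    push_cast
    have : (0 : ℝ) ≤ n := Nat.cast_nonneg n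
    linarith
  generalize 2 * n + 1 = m at hmodd hm1 hmk
  have hmpos : (0 : ℝ) < m := by linarith
  have hgm : (g : ℝ) / (m : ℝ) ^ 2 ≤ κ' / 2 := by
    rw [div_le_iff₀ (by positivity)]
    have h1 : 2 * (g : ℝ) ≤ m * κ' := by rwa [div_le_iff₀ hκ'] at hmk
    have h2 : (m : ℝ) ≤ (m : ℝ) ^ 2 := by nlinarith
    nlinarith
  refine ⟨m, hmodd, ?_⟩
  obtain ⟨L, _, _, η, d, σ, b₀, S, hdg, hS, hnη, hspec, hDEG⟩ := H m hmodd
  obtain ⟨C₁, hC₁⟩ := crvClause_of_CRV hK t htdeg (hCRV L) η hnη σ (κ' / (2 * g)) (by positivity)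
  obtain ⟨B₀, hB₀1, hB₀2, -⟩ := hCAN b₀
  -- the exceptional points: any division point
  have hm1' : 1 ≤ m := by exact_mod_cast hm1
  have hex : ∀ P : Pl inf, ∃ E : Pl inf →₀ ℕ, degE E ≤ g ∧
      m • cls inf hdeg E = cls inf hdeg (Finsupp.single P 1) := by
    intro P
    obtain ⟨z, hz⟩ := hDIV m hm1' (cls inf hdeg (Finsupp.single P 1))
    obtain ⟨E, hE1, hE2, _⟩ := hCAN z
    exact ⟨E, hE2, by rw [hE1, hz]⟩
  choose Eex hEex1 hEex2 using hex
  let f : Place K F → ℝ := fun Q =>
    if h : Q ≠ inf then hE (ptHeight hK t inf) (Eex ⟨Q, h⟩) else 0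
  obtain ⟨M, hM⟩ := (hS.image f).bddAbove
  have hht0 : ∀ P : Pl inf, 0 ≤ ptHeight hK t inf P := fun P => hK0 _
  have hB₀nn : 0 ≤ hE (ptHeight hK t inf) B₀ := hE_nonneg _ hht0 _
  have hC0 : 0 ≤ max C₁ 0 := le_max_right _ _
  refine ⟨max M 0 + (A * (hE (ptHeight hK t inf) B₀ + g * max C₁ 0) + |B|), by positivity, ?_⟩
  intro P
  have hP0 := hht0 P
  by_cases hPS : P.1 ∈ S
  · refine ⟨Eex P, hEex1 P, hEex2 P, ?_⟩
    have h1 : f P.1 ≤ M := hM ⟨P.1, hPS, rfl⟩
    have h2 : f P.1 = hE (ptHeight hK t inf) (Eex P) := by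
      simp only [f]
      rw [dif_pos P.2]
    have h3 : 0 ≤ A * (hE (ptHeight hK t inf) B₀ + g * max C₁ 0) + |B| := by positivity
    have h4 : 0 ≤ κ * ptHeight hK t inf P := mul_nonneg hκ.le hP0
    have h5 := le_max_left M 0
    linarith
  · obtain ⟨x, Q, hxP, hxQ, hspecP⟩ := hspec P.1 hPS
    obtain ⟨Ex, hExdef⟩ : ∃ Ex : Pl inf →₀ ℕ, Ex = ∑ j, ptE inf (Q j) := ⟨_, rfl⟩
    have hExdeg : degE Ex ≤ d := by
      rw [hExdef, degE_finset_sum]
      have : ∑ j : Fin d, degE (ptE inf (Q j)) ≤ ∑ _j : Fin d, 1 :=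
        Finset.sum_le_sum fun j _ => degE_ptE_le inf _
      simpa using this
    have hExcls : cls inf hdeg Ex = ∑ j, Pic0.mk (ptDiv inf hdeg (Q j)) := by
      rw [hExdef, map_sum]
      simp_rw [cls_ptE]
    -- the height estimate for `Ex`
    have hExh : hE (ptHeight hK t inf) Ex ≤ κ' * ptHeight hK t inf P + g * max C₁ 0 := by
      have hηval : hK (valueAt x (η t)) = ptHeight hK t inf P := by
        rw [← hxP.valueAt_comp t]
        rfl
      have hηreg : 0 ≤ x.ord (η t) := (hxP.ord_nonneg_iff t).mp (ht P.1 P.2)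
      have hnη' : (0 : ℝ) < (finrankAlong K η : ℝ) := by exact_mod_cast hnη
      have hterm : ∀ j : Fin d, hE (ptHeight hK t inf) (ptE inf (Q j)) ≤
          ((finrankAlong K (σ j) : ℝ) / (finrankAlong K η : ℝ) + κ' / (2 * g)) *
            ptHeight hK t inf P + max C₁ 0 := by
        intro j
        have hr : 0 ≤ (finrankAlong K (σ j) : ℝ) / (finrankAlong K η : ℝ) := by positivity
        have hε : 0 ≤ κ' / (2 * g) := by positivity
        by_cases hQ : Q j = inf
        · have h0 : hE (ptHeight hK t inf) (ptE inf (Q j)) = 0 :=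
            hE_ptE_of_eq (fun Q => hK (valueAt Q t)) inf hQ
          rw [h0]
          have h6 : 0 ≤ ((finrankAlong K (σ j) : ℝ) / (finrankAlong K η : ℝ) + κ' / (2 * g)) *
            ptHeight hK t inf P := by positivity
          linarith
        · have h0 : hE (ptHeight hK t inf) (ptE inf (Q j)) = hK (valueAt (Q j) t) :=
            hE_ptE_of_ne (fun Q => hK (valueAt Q t)) inf hQ
          rw [h0, (hxQ j).valueAt_comp t]
          have hreg : 0 ≤ x.ord (σ j t) := ((hxQ j).ord_nonneg_iff t).mp (ht _ hQ)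
          have := hC₁ x j hreg hηreg
          rw [hηval] at this
          have h7 := le_max_left C₁ 0
          linarith
      rw [hExdef, hE_finset_sum]
      have hsum : ∑ j : Fin d, hE (ptHeight hK t inf) (ptE inf (Q j)) ≤
          ∑ j : Fin d, (((finrankAlong K (σ j) : ℝ) / (finrankAlong K η : ℝ) + κ' / (2 * g)) *
            ptHeight hK t inf P + max C₁ 0) :=
        Finset.sum_le_sum fun j _ => hterm j
      have hexp : ∑ j : Fin d, (((finrankAlong K (σ j) : ℝ) / (finrankAlong K η : ℝ) +
            κ' / (2 * g)) * ptHeight hK t inf P + max C₁ 0) =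
          ((∑ j : Fin d, (finrankAlong K (σ j) : ℝ)) / (finrankAlong K η : ℝ) +
            d * (κ' / (2 * g))) * ptHeight hK t inf P + d * max C₁ 0 := by
        rw [Finset.sum_add_distrib, ← Finset.sum_mul, Finset.sum_add_distrib, ← Finset.sum_div]
        simp only [Finset.sum_const, Finset.card_univ, Fintype.card_fin, nsmul_eq_mul]
      rw [hexp] at hsum
      have hdeg' : (∑ j : Fin d, (finrankAlong K (σ j) : ℝ)) / (finrankAlong K η : ℝ) ≤
          (g : ℝ) / (m : ℝ) ^ 2 := by
        rw [div_le_div_iff₀ hnη' (by positivity)]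
        have : ((m ^ 2 * ∑ j, finrankAlong K (σ j) : ℕ) : ℝ) ≤
            ((g * finrankAlong K η : ℕ) : ℝ) := by
          exact_mod_cast hDEG
        push_cast at this
        linarith
      have hdg' : (d : ℝ) ≤ g := by exact_mod_cast hdg
      have hcoef : (∑ j : Fin d, (finrankAlong K (σ j) : ℝ)) / (finrankAlong K η : ℝ) +
          d * (κ' / (2 * g)) ≤ κ' := by
        have h8 : (d : ℝ) * (κ' / (2 * g)) ≤ g * (κ' / (2 * g)) :=
          mul_le_mul_of_nonneg_right hdg' (by positivity)
        have h9 : (g : ℝ) * (κ' / (2 * g)) = κ' / 2 := by field_simp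
        linarith
      have h10 : ((∑ j : Fin d, (finrankAlong K (σ j) : ℝ)) / (finrankAlong K η : ℝ) +
          d * (κ' / (2 * g))) * ptHeight hK t inf P ≤ κ' * ptHeight hK t inf P :=
        mul_le_mul_of_nonneg_right hcoef hP0
      have h11 : (d : ℝ) * max C₁ 0 ≤ g * max C₁ 0 := mul_le_mul_of_nonneg_right hdg' hC0
      linarith
    -- the reduced representative of the division point `b₀ + [Ex]`
    obtain ⟨E, hE1, hE2, hE3⟩ := hCAN (cls inf hdeg (B₀ + Ex))
    refine ⟨E, hE2, ?_, ?_⟩
    · rw [hE1, map_add, hB₀1, hExcls, hspecP, cls_single, one_nsmul]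
    · have hdegsum : degE (B₀ + Ex) ≤ g * g + g := by
        rw [degE_add]
        have : g ≤ g * g := Nat.le_mul_self g
        omega
      have h1 := hred (B₀ + Ex) hdegsum
      rw [classHeight_eq _ _ hE1 hE3, hE_add] at h1
      have h2 : A * (hE (ptHeight hK t inf) B₀ + hE (ptHeight hK t inf) Ex) ≤
          A * (hE (ptHeight hK t inf) B₀ + (κ' * ptHeight hK t inf P + g * max C₁ 0)) :=
        mul_le_mul_of_nonneg_left (by linarith) hA.le
      have h3 : A * (hE (ptHeight hK t inf) B₀ + (κ' * ptHeight hK t inf P + g * max C₁ 0)) =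
          κ * ptHeight hK t inf P + A * (hE (ptHeight hK t inf) B₀ + g * max C₁ 0) := by
        rw [← hAκ']; ring
      have h4 := le_abs_self B
      have h5 := le_max_right M 0
      linarith

end glue

end

end Fermat.Agent.S17lib
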