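/-
S17lib/GenDivData.lean  (Project G; chief architect helper7)

The CONTRACT of the final assembly of `GENDIV`: the `Ω`-level division datum (`OmegaData`, the output
of the one-obtain theorem F1 = helper4's `CCR/DivOmega.lean`), the `L`-level datum (`LData`, the
output of helper1's `exists_compositum_of_isAlgebraic`), and the rationality facts needed by the
(P2)-local wrapper (`DegRat`).  The two halves

* (SPEC) helper2, `GenDiv/SpecCCR.lean`,
* (DEG)  helper3, `GenDiv/Deg.lean`,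

take `OmegaData` + `LData` (+ `DegRat`) as inputs; `GenDivFinal.lean` combines them.
-/
import Mathlib
import Fermat.Agent.S17lib.Glue
import Fermat.Agent.S15lib.Weil.Eval
import Fermat.Agent.S18lib.Cech.CurveBasics

set_option autoImplicit false
set_option linter.unusedSectionVars false

open AlgebraicCurve IntermediateField

namespace Fermat.Agent.S17lib

noncomputable section

variable {k Ω Fk FΩ : Type*} [Field k] [Field Ω] [Field Fk] [Field FΩ]
  [Algebra k Ω] [Algebra k Fk] [Algebra Ω FΩ] [Algebra k FΩ] [IsScalarTower k Ω FΩ]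
  [Algebra Fk Ω] [IsScalarTower k Fk Ω]

/-- **the `Ω`-level division datum**: constant places `cst p`, the generic point `η'`, the `d`
non-constant division points `Q' j` with their embeddings `σ' j : Fk → Ω`, the constant divisors
`B₀` (base, degree `g`) and `E₀` (the constant division points), and the function `φ` with
`div φ = m (∑ Q' j + cst_* (E₀ - B₀)) - η' + cst inf`. -/
structure OmegaData (ι : Fk →ₐ[k] FΩ) (inf : Place k Fk) (g m : ℕ)
    (cst : Place k Fk → Place Ω FΩ) (η' : Place Ω FΩ) (d : ℕ) (Q' : Fin d → Place Ω FΩ)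
    (σ' : Fin d → Fk →ₐ[k] Ω) (B₀ E₀ : Divisor k Fk) (φ : FΩ) : Prop where
  cst_ord : ∀ p f, (cst p).ord (ι f) = p.ord f
  cst_inj : Function.Injective cst
  eta_val : ∀ f, ι f = algebraMap Ω FΩ (algebraMap Fk Ω f) ∨
    0 < η'.ord (ι f - algebraMap Ω FΩ (algebraMap Fk Ω f))
  Q_val : ∀ j f, ι f = algebraMap Ω FΩ (σ' j f) ∨ 0 < (Q' j).ord (ι f - algebraMap Ω FΩ (σ' j f))
  sigma_inj : Function.Injective σ'
  sigma_ne : ∀ j, σ' j ≠ IsScalarTower.toAlgHom k Fk Ω
  Q_inj : Function.Injective Q'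
  Q_nonconst : ∀ j, Q' j ∉ Set.range cst
  Q_ne_eta : ∀ j, Q' j ≠ η'
  eta_nonconst : η' ∉ Set.range cst
  degB : Divisor.degree B₀ = g
  E_nonneg : 0 ≤ E₀
  E_le_one : ∀ p, E₀ p ≤ 1
  E_off_B : ∀ p, B₀ p ≠ 0 → E₀ p = 0
  E_inf : E₀ inf = 0
  degE : Divisor.degree E₀ + d = g
  phi_ne : φ ≠ 0
  ord_phi : ∀ P : Place Ω FΩ, P.ord φ =
    (m : ℤ) * ((∑ j, Finsupp.single (Q' j) (1 : ℤ) : Divisor Ω FΩ) P
        + (Finsupp.mapDomain cst (E₀ - B₀) : Divisor Ω FΩ) P)
      - (Finsupp.single η' (1 : ℤ) - Finsupp.single (cst inf) (1 : ℤ) : Divisor Ω FΩ) P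
  lE : Module.finrank Ω (riemannRochSpace
    ((∑ j, Finsupp.single (Q' j) (1 : ℤ) : Divisor Ω FΩ) + Finsupp.mapDomain cst E₀)) = 1

/-- **the `L`-level datum**: a subfield `L ⊂ Ω` over which the generic point and the division points
are rational (the clauses of `Compositum.exists_compositum_of_isAlgebraic`). -/
structure LData {d : ℕ} (σ' : Fin d → Fk →ₐ[k] Ω) (y₀ : Fk) (L : IntermediateField k Ω)
    (η : Fk →ₐ[k] L) (σ : Fin d → Fk →ₐ[k] L) : Prop where
  eta_coe : ∀ f, (η f : Ω) = algebraMap Fk Ω f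
  sigma_coe : ∀ j f, (σ j f : Ω) = σ' j f
  eta_fin : FiniteAlong k η
  eta_pos : 0 < finrankAlong k η
  eta_int : η.toRingHom.IsIntegral
  sigma_fin : ∀ j, FiniteAlong k (σ j) ∧ 0 < finrankAlong k (σ j) ∧ (σ j).toRingHom.IsIntegral
  transc : Transcendental k (η y₀)
  fd : FiniteDimensional k⟮η y₀⟯ L

open Fermat.Agent.S15lib.Weil in
/-- **rationality of the leading coefficients** of `φ` (inputs `lam`, `lam₀` of helper8's
`p2_wrap`): they lie in `L`.  `τ` the auxiliary non-constant function, `r₀` the reference point. -/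
structure DegRat [RatPlaces Ω FΩ] (ι : Fk →ₐ[k] FΩ) (m : ℕ)
    (cst : Place k Fk → Place Ω FΩ) (η' : Place Ω FΩ) {d : ℕ} (Q' : Fin d → Place Ω FΩ)
    (σ' : Fin d → Fk →ₐ[k] Ω) (φ : FΩ) (τ : Fk) (r₀ : Place k Fk) (L : IntermediateField k Ω) :
    Prop where
  lamQ : ∀ j, ∃ lam : L, (lam : Ω) =
    val (Q' j) (φ * (ι τ - algebraMap Ω FΩ (σ' j τ)) ^ (-(m : ℤ)))
  lamEta : ∃ lam : L, (lam : Ω) =
    val η' (φ * (ι τ - algebraMap Ω FΩ (algebraMap Fk Ω τ)) ^ (1 : ℤ))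
  lam₀ : ∃ lam : L, (lam : Ω) = val (cst r₀) φ

section lemmas

variable {ι : Fk →ₐ[k] FΩ} {inf : Place k Fk} {g m : ℕ}
    {cst : Place k Fk → Place Ω FΩ} {η' : Place Ω FΩ} {d : ℕ} {Q' : Fin d → Place Ω FΩ}
    {σ' : Fin d → Fk →ₐ[k] Ω} {B₀ E₀ : Divisor k Fk} {φ : FΩ}

theorem OmegaData.degC (h : OmegaData ι inf g m cst η' d Q' σ' B₀ E₀ φ) :
    Divisor.degree (E₀ - B₀) + d = 0 := by
  rw [map_sub, h.degB]
  have := h.degE
  linarith

theorem OmegaData.d_le (h : OmegaData ι inf g m cst η' d Q' σ' B₀ E₀ φ) : d ≤ g := by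
  have h1 : 0 ≤ Divisor.degree E₀ :=
    Fermat.Agent.S18lib.Cech.degree_nonneg_of_nonneg fun v => h.E_nonneg v
  have := h.degE
  omega

end lemmas

open Fermat.Agent.S15lib.Weil in
/-- **the (DEG) half in the shape of the contract**: for every `Ω`-level datum (with `cst` hitting
ALL the constant places: `hgen`), reference point `r₀`, compositum `L` and rationality of the leading
coefficients (with `τ := y₀`). -/
def DegContract [RatPlaces Ω FΩ] (ι : Fk →ₐ[k] FΩ) (g : ℕ) (y₀ : Fk) : Prop :=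
  ∀ (inf : Place k Fk) (m : ℕ), 0 < m → ∀ (cst : Place k Fk → Place Ω FΩ) (η' : Place Ω FΩ) (d : ℕ)
    (Q' : Fin d → Place Ω FΩ) (σ' : Fin d → Fk →ₐ[k] Ω) (B₀ E₀ : Divisor k Fk) (φ : FΩ),
    OmegaData ι inf g m cst η' d Q' σ' B₀ E₀ φ →
    (∀ Q : Place Ω FΩ, Q ∉ Set.range cst → ∀ f : Fk, f ≠ 0 → Q.ord (ι f) = 0) →
    ∀ r₀ : Place k Fk, B₀ r₀ = 0 → E₀ r₀ = 0 → r₀ ≠ inf →
    ∀ (L : IntermediateField k Ω) (η : Fk →ₐ[k] L) (σ : Fin d → Fk →ₐ[k] L),
      LData σ' y₀ L η σ → DegRat ι m cst η' Q' σ' φ y₀ r₀ L →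
        m ^ 2 * ∑ j, finrankAlong k (σ j) ≤ g * finrankAlong k η

end

end Fermat.Agent.S17lib
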