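/-
S17lib / Height  (helper3) — Project G (S17): the canonical `inf`-reduced representative and block CAN.

For a function field `F / K` with `hF : IsCurveOfGenus K F g` and a base place `inf`:

* effective divisors on ALL places are `Place K F →₀ ℕ` (`degE`, `hE ht` from `S17lib/Blocks.lean`);
  `toDiv D : Divisor K F`, `relDiv inf D = D - (deg D)·inf`,
  `clsHom hdeg inf : (Place K F →₀ ℕ) →+ Pic0 K F`, `D ↦ [D - (deg D)·inf]`, `clsHom_eq_iff`;
* `IsMinRep hdeg inf w D` : `D` is an effective representative of `w` of MINIMAL degree;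
  `exists_rep_degE_eq` (a representative of degree `g`: Riemann's inequality),
  `exists_isMinRep` (existence, degree `≤ g`), `exists_rep_degE_lt` (two distinct representatives
  of the same degree give one of smaller degree), `IsMinRep.unique`, `IsMinRep.apply_inf`
  (`inf ∉ D`), `IsMinRep.const_of_mem` (`L(D) = K`), `isMinRep_of_const` (the converse);
* `canRep hdeg inf w`, `jHeight ht hdeg inf w = hE ht (canRep hdeg inf w)`, `jHeight_spec`;
* equivariance under `σ : SemilinearAut K F` with `σ • inf = inf`: `smulEff`, `clsHom_smulEff`,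
  `IsMinRep.smul`, `canRep_smul`, `smulEff_canRep_of_fixed`, `smul_mem_support_canRep`,
  `jHeight_smul`;
* THE BRIDGE to `Iface.lean` (`Pl inf`, `cls`, `IsInfReduced`, `classHeight`, `CAN`):
  `embPl inf : (Pl inf →₀ ℕ) →+ (Place K F →₀ ℕ)`, `cls_eq_clsHom`,
  `isInfReduced_iff_isMinRep`, **`can_of_isCurveOfGenus : CAN (cls inf hF.deg_eq_one) g`**,
  **`isInfReduced_iff_const`**, **`isInfReduced_iff_finrank`** (`⟺ finrank L(D) = 1`),
  `classHeight_eq_jHeight`, `pic0_eq_zero_of_genus_zero`.
-/
import Mathlib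
import Fermat.Prelude.Def_AlgebraicCurve_DivisorClassGroup
import Fermat.Prelude.Def_AlgebraicCurve_Repartitions
import Fermat.Prelude.Def_AlgebraicCurve_BaseChangeGalois
import Fermat.Prelude.Def_ModularCurve_ArithmeticGalois
import Fermat.Agent.S18lib.Setup.CurveRR
import Fermat.Agent.S18lib.Setup.DivLemmas
import Fermat.Agent.S18lib.Cech.CurveBasics
import Fermat.Agent.S37lib.Red.Curve
import Fermat.Agent.S17lib.Iface

set_option autoImplicit false

noncomputable section

namespace Fermat.Agent.S17lib

open AlgebraicCurve Fermat.Agent.S18lib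

variable {K F : Type*} [Field K] [Field F] [Algebra K F]

/-! ### effective divisors -/

/-- the divisor of an effective divisor -/
def toDiv : (Place K F →₀ ℕ) →+ Divisor K F :=
  Finsupp.mapRange.addMonoidHom (Nat.castAddMonoidHom ℤ)

@[simp]
theorem toDiv_apply (D : Place K F →₀ ℕ) (P : Place K F) : toDiv D P = (D P : ℤ) := rfl

theorem toDiv_nonneg (D : Place K F →₀ ℕ) (P : Place K F) : 0 ≤ toDiv D P := by simp

theorem toDiv_injective : Function.Injective (toDiv (K := K) (F := F)) := by
  intro D D' h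
  ext P
  have := DFunLike.congr_fun h P
  simpa using this

theorem toDiv_single (P : Place K F) (n : ℕ) :
    toDiv (Finsupp.single P n) = Finsupp.single P (n : ℤ) := by
  ext Q
  classical
  simp [Finsupp.single_apply]

/-- an effective `ℤ`-divisor comes from an `ℕ`-divisor -/
theorem exists_toDiv_eq {E : Divisor K F} (hE : ∀ P, 0 ≤ E P) : ∃ D : Place K F →₀ ℕ, toDiv D = E := by
  refine ⟨E.mapRange Int.toNat rfl, ?_⟩
  ext P
  simp [Int.toNat_of_nonneg (hE P)]

theorem degree_toDiv (hdeg : ∀ P : Place K F, P.deg = 1) (D : Place K F →₀ ℕ) :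
    Divisor.degree (toDiv D) = (degE D : ℤ) := by
  induction D using Finsupp.induction with
  | zero => simp [degE]
  | single_add P n D _ _ ih =>
    rw [map_add, map_add, ih, degE_add, toDiv_single, Divisor.degree_single, hdeg,
      degE_single]
    push_cast
    ring

/-- `D - (deg D)·inf` -/
def relDiv (inf : Place K F) (D : Place K F →₀ ℕ) : Divisor K F :=
  toDiv D - Finsupp.single inf (degE D : ℤ)

theorem relDiv_zero (inf : Place K F) : relDiv inf (0 : Place K F →₀ ℕ) = 0 := by
  simp [relDiv, degE]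

theorem relDiv_add (inf : Place K F) (D E : Place K F →₀ ℕ) :
    relDiv inf (D + E) = relDiv inf D + relDiv inf E := by
  unfold relDiv
  rw [map_add, degE_add]
  push_cast
  rw [Finsupp.single_add]
  abel

theorem degree_relDiv (hdeg : ∀ P : Place K F, P.deg = 1) (inf : Place K F)
    (D : Place K F →₀ ℕ) : Divisor.degree (relDiv inf D) = 0 := by
  unfold relDiv
  rw [map_sub, degree_toDiv hdeg, Divisor.degree_single, hdeg]
  simp

/-- the class map `D ↦ [D - (deg D)·inf]` -/
def clsHom (hdeg : ∀ P : Place K F, P.deg = 1) (inf : Place K F) :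
    (Place K F →₀ ℕ) →+ Pic0 K F where
  toFun D := Pic0.mk ⟨relDiv inf D, degree_relDiv hdeg inf D⟩
  map_zero' := by
    have : (⟨relDiv inf (0 : Place K F →₀ ℕ), degree_relDiv hdeg inf 0⟩ :
        Divisor.degZero (K := K) (F := F)) = 0 := Subtype.ext (relDiv_zero inf)
    rw [this, Pic0.mk_zero]
  map_add' D E := by
    have : (⟨relDiv inf (D + E), degree_relDiv hdeg inf (D + E)⟩ :
        Divisor.degZero (K := K) (F := F)) =
        ⟨relDiv inf D, degree_relDiv hdeg inf D⟩ + ⟨relDiv inf E, degree_relDiv hdeg inf E⟩ :=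
      Subtype.ext (relDiv_add inf D E)
    rw [this, Pic0.mk_add]

theorem clsHom_apply (hdeg : ∀ P : Place K F, P.deg = 1) (inf : Place K F)
    (D : Place K F →₀ ℕ) :
    clsHom hdeg inf D = Pic0.mk ⟨relDiv inf D, degree_relDiv hdeg inf D⟩ := rfl

/-- two degree zero divisors have the same class iff they differ by a principal divisor -/
theorem pic0_mk_eq_iff (A B : Divisor.degZero (K := K) (F := F)) :
    Pic0.mk A = Pic0.mk B ↔ ∃ f : F, f ≠ 0 ∧ ∀ v : Place K F, (B : Divisor K F) v - (A : Divisor K F) v = v.ord f := by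
  unfold Pic0.mk
  rw [QuotientAddGroup.eq, AddSubgroup.mem_addSubgroupOf, Divisor.mem_principal]
  constructor
  · rintro ⟨f, hf, h⟩
    refine ⟨f, hf, fun v => ?_⟩
    have := h v
    simp only [AddSubgroup.coe_add, NegMemClass.coe_neg, Finsupp.add_apply, Finsupp.neg_apply] at this
    omega
  · rintro ⟨f, hf, h⟩
    refine ⟨f, hf, fun v => ?_⟩
    simp only [AddSubgroup.coe_add, NegMemClass.coe_neg, Finsupp.add_apply, Finsupp.neg_apply]
    have := h v
    omega

theorem clsHom_eq_iff (hdeg : ∀ P : Place K F, P.deg = 1) (inf : Place K F)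
    (D E : Place K F →₀ ℕ) :
    clsHom hdeg inf D = clsHom hdeg inf E ↔
      ∃ f : F, f ≠ 0 ∧ ∀ v : Place K F, relDiv inf E v - relDiv inf D v = v.ord f :=
  pic0_mk_eq_iff _ _

/-! ### the canonical `inf`-reduced representative -/

/-- `D` is an effective representative of `w` (relative to `inf`) of minimal degree -/
def IsMinRep (hdeg : ∀ P : Place K F, P.deg = 1) (inf : Place K F) (w : Pic0 K F)
    (D : Place K F →₀ ℕ) : Prop :=
  clsHom hdeg inf D = w ∧ ∀ D' : Place K F →₀ ℕ, clsHom hdeg inf D' = w → degE D ≤ degE D'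

section Curve

variable {g : ℕ} (hF : IsCurveOfGenus K F g) (inf : Place K F)
include hF

/-- every class has an effective representative of degree `g` (Riemann's inequality) -/
theorem exists_rep_degE_eq (w : Pic0 K F) :
    ∃ D : Place K F →₀ ℕ, clsHom hF.deg_eq_one inf D = w ∧ degE D = g := by
  obtain ⟨W, rfl⟩ := Pic0.mk_surjective w
  have hW : Divisor.degree (W : Divisor K F) = 0 := W.2
  set E : Divisor K F := (W : Divisor K F) + Finsupp.single inf (g : ℤ) with hE
  have hdegE : Divisor.degree E = g := by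
    rw [hE, map_add, hW, Divisor.degree_single, hF.deg_eq_one]; simp
  have hfin := hF.finiteDimensional E
  have hpos : 0 < Module.finrank K (riemannRochSpace E) := by
    have := hF.riemann_le E
    rw [hdegE] at this
    omega
  obtain ⟨⟨f, hfE⟩, hf0⟩ := Module.finrank_pos_iff_exists_ne_zero.1 hpos
  have hf : f ≠ 0 := fun h => hf0 (Subtype.ext h)
  obtain ⟨Df, hDf, hdeg0⟩ := hF.hasPrincipalDivisors.exists_divisor f hf
  rw [Cech.mem_rr_of_ne hf] at hfE
  have hnn : ∀ P, 0 ≤ (Df + E) P := by
    intro P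
    rw [Finsupp.add_apply, hDf P]
    have := hfE P
    omega
  obtain ⟨D, hD⟩ := exists_toDiv_eq hnn
  have hdD : (degE D : ℤ) = g := by
    rw [← degree_toDiv hF.deg_eq_one, hD, map_add, hdeg0, hdegE, zero_add]
  refine ⟨D, ?_, by exact_mod_cast hdD⟩
  rw [clsHom_apply, pic0_mk_eq_iff]
  refine ⟨f⁻¹, inv_ne_zero hf, fun v => ?_⟩
  show (W : Divisor K F) v - relDiv inf D v = v.ord f⁻¹
  unfold relDiv
  rw [hD, hdD, v.ord_inv, Finsupp.sub_apply, Finsupp.add_apply, hE, Finsupp.add_apply, hDf v]
  ring

/-- **existence of the `inf`-reduced representative**, of degree `≤ g` -/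
theorem exists_isMinRep (w : Pic0 K F) :
    ∃ D : Place K F →₀ ℕ, IsMinRep hF.deg_eq_one inf w D ∧ degE D ≤ g := by
  classical
  have hex : ∃ n : ℕ, ∃ D : Place K F →₀ ℕ, clsHom hF.deg_eq_one inf D = w ∧ degE D = n := by
    obtain ⟨D, hD, hg⟩ := exists_rep_degE_eq hF inf w
    exact ⟨g, D, hD, hg⟩
  obtain ⟨D, hD, hn⟩ := Nat.find_spec hex
  refine ⟨D, ⟨hD, fun D' hD' => ?_⟩, ?_⟩
  · rw [hn]
    exact Nat.find_min' hex ⟨D', hD', rfl⟩
  · rw [hn]
    obtain ⟨D₀, hD₀, hg⟩ := exists_rep_degE_eq hF inf w
    exact Nat.find_min' hex ⟨D₀, hD₀, hg⟩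

/-- **the key lemma**: two distinct effective representatives of the same degree produce a
representative of smaller degree -/
theorem exists_rep_degE_lt {D D' : Place K F →₀ ℕ}
    (hcls : clsHom hF.deg_eq_one inf D = clsHom hF.deg_eq_one inf D')
    (hdeg : degE D = degE D') (hne : D ≠ D') :
    ∃ D'' : Place K F →₀ ℕ, clsHom hF.deg_eq_one inf D'' = clsHom hF.deg_eq_one inf D ∧
      degE D'' + 1 = degE D := by
  classical
  -- a function `f` with `div f = D' - D`
  obtain ⟨f, hf, hdiv⟩ := (clsHom_eq_iff hF.deg_eq_one inf D D').1 hcls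
  have hdiv' : ∀ v : Place K F, v.ord f = (D' v : ℤ) - (D v : ℤ) := by
    intro v
    rw [← hdiv v]
    unfold relDiv
    rw [hdeg]
    simp
  -- `f` is not constant
  have hnc : ∀ c : K, f ≠ algebraMap K F c := by
    rintro c rfl
    apply hne
    ext v
    have := hdiv' v
    rw [Cech.ord_const] at this
    omega
  -- it suffices to find an effective `E ~ D` of the same degree through `inf`
  suffices h : ∃ E : Place K F →₀ ℕ, clsHom hF.deg_eq_one inf E = clsHom hF.deg_eq_one inf D ∧
      degE E = degE D ∧ 1 ≤ E inf by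
    obtain ⟨E, hE, hEd, hEinf⟩ := h
    have hsplit : E = (E - Finsupp.single inf 1) + Finsupp.single inf 1 := by
      ext v
      by_cases hv : inf = v
      · subst hv
        simp only [Finsupp.add_apply, Finsupp.tsub_apply, Finsupp.single_eq_same]
        omega
      · simp [Finsupp.single_eq_of_ne' hv] 
    have hd1 : degE E = degE (E - Finsupp.single inf 1) + 1 := by
      conv_lhs => rw [hsplit]
      rw [degE_add, degE_single]
    refine ⟨E - Finsupp.single inf 1, ?_, by omega⟩
    rw [← hE]
    conv_rhs => rw [hsplit]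
    rw [map_add]
    have h0 : clsHom hF.deg_eq_one inf (Finsupp.single inf 1) = 0 := by
      rw [clsHom_apply]
      have : (⟨relDiv inf (Finsupp.single inf 1), degree_relDiv hF.deg_eq_one inf _⟩ :
          Divisor.degZero (K := K) (F := F)) = 0 := by
        apply Subtype.ext
        show relDiv inf (Finsupp.single inf 1) = 0
        unfold relDiv
        rw [toDiv_single, degE_single, sub_self]
      rw [this, Pic0.mk_zero]
    rw [h0, add_zero]
  by_cases hinf : 1 ≤ D inf
  · exact ⟨D, rfl, rfl, hinf⟩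
  -- `f` is regular at `inf`; subtract its value
  have hDinf : D inf = 0 := by omega
  have hreg : f ∈ inf.toValuationSubring := by
    have h1 := hdiv' inf
    rw [hDinf] at h1
    exact Fermat.Agent.ProgramR.FF.mem_of_ord_nonneg inf (by rw [h1]; simp)
  obtain ⟨c, hc⟩ := Cech.exists_value_of_deg_eq_one inf (hF.deg_eq_one inf) hreg
  have hc1 : 1 ≤ inf.ord (f - algebraMap K F c) := hc.resolve_left (hnc c)
  set f' : F := f - algebraMap K F c with hf'
  have hf'0 : f' ≠ 0 := sub_ne_zero.2 (hnc c)
  have hord : ∀ v : Place K F, -(D v : ℤ) ≤ v.ord f' := by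
    intro v
    have h1 : f = 0 ∨ -(D v : ℤ) ≤ v.ord f := Or.inr (by rw [hdiv' v]; omega)
    have h2 : -algebraMap K F c = 0 ∨ -(D v : ℤ) ≤ v.ord (-algebraMap K F c) := by
      right
      rw [Cech.ord_neg, Cech.ord_const]
      omega
    have := Cech.ord_add_ge v h1 h2
    rw [← sub_eq_add_neg] at this
    exact this.resolve_left hf'0
  obtain ⟨Df, hDf, hdeg0⟩ := hF.hasPrincipalDivisors.exists_divisor f' hf'0
  have hnn : ∀ P, 0 ≤ (toDiv D + Df) P := by
    intro P
    rw [Finsupp.add_apply, hDf P, toDiv_apply]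
    have := hord P
    omega
  obtain ⟨E, hE⟩ := exists_toDiv_eq hnn
  have hdE : degE E = degE D := by
    have h1 : (degE E : ℤ) = degE D := by
      rw [← degree_toDiv hF.deg_eq_one, ← degree_toDiv hF.deg_eq_one, hE, map_add, hdeg0,
        add_zero]
    exact_mod_cast h1
  refine ⟨E, ?_, hdE, ?_⟩
  · rw [clsHom_eq_iff]
    refine ⟨f'⁻¹, inv_ne_zero hf'0, fun v => ?_⟩
    unfold relDiv
    rw [hE, hdE, v.ord_inv, Finsupp.sub_apply, Finsupp.sub_apply, Finsupp.add_apply, hDf v]
    ring
  · have h1 := DFunLike.congr_fun hE inf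
    rw [toDiv_apply, Finsupp.add_apply, hDf inf, toDiv_apply, hDinf] at h1
    have : (1 : ℤ) ≤ (E inf : ℤ) := by rw [h1]; simpa using hc1
    exact_mod_cast this

/-- **uniqueness of the `inf`-reduced representative** -/
theorem IsMinRep.unique {w : Pic0 K F} {D D' : Place K F →₀ ℕ}
    (hD : IsMinRep hF.deg_eq_one inf w D) (hD' : IsMinRep hF.deg_eq_one inf w D') :
    D = D' := by
  by_contra hne
  have hdeg : degE D = degE D' := le_antisymm (hD.2 D' hD'.1) (hD'.2 D hD.1)
  obtain ⟨D'', h1, h2⟩ := exists_rep_degE_lt hF inf (hD.1.trans hD'.1.symm) hdeg hne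
  have := hD.2 D'' (h1.trans hD.1)
  omega

/-- the reduced representative does not contain `inf` -/
theorem IsMinRep.apply_inf {w : Pic0 K F} {D : Place K F →₀ ℕ}
    (hD : IsMinRep hF.deg_eq_one inf w D) : D inf = 0 := by
  classical
  by_contra h0
  have hsplit : D = (D - Finsupp.single inf 1) + Finsupp.single inf 1 := by
    ext v
    by_cases hv : inf = v
    · subst hv
      simp only [Finsupp.add_apply, Finsupp.tsub_apply, Finsupp.single_eq_same]
      omega
    · simp [Finsupp.single_eq_of_ne' hv]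
  have hd1 : degE D = degE (D - Finsupp.single inf 1) + 1 := by
    conv_lhs => rw [hsplit]
    rw [degE_add, degE_single]
  have h0' : clsHom hF.deg_eq_one inf (Finsupp.single inf 1) = 0 := by
    rw [clsHom_apply]
    have : (⟨relDiv inf (Finsupp.single inf 1), degree_relDiv hF.deg_eq_one inf _⟩ :
        Divisor.degZero (K := K) (F := F)) = 0 := by
      apply Subtype.ext
      show relDiv inf (Finsupp.single inf 1) = 0
      unfold relDiv
      rw [toDiv_single, degE_single, sub_self]
    rw [this, Pic0.mk_zero]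
  have hc : clsHom hF.deg_eq_one inf (D - Finsupp.single inf 1) = w := by
    rw [← hD.1]
    conv_rhs => rw [hsplit]
    rw [map_add, h0', add_zero]
  have := hD.2 _ hc
  omega

/-- on the reduced representative every function of `L(D)` is constant: `ℓ(D) = 1` -/
theorem IsMinRep.const_of_mem {w : Pic0 K F} {D : Place K F →₀ ℕ}
    (hD : IsMinRep hF.deg_eq_one inf w D) {f : F} (hf : f ∈ riemannRochSpace (toDiv D)) :
    ∃ c : K, f = algebraMap K F c := by
  by_contra hnc
  push Not at hnc
  have hf0 : f ≠ 0 := by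
    intro h
    exact hnc 0 (by rw [h, map_zero])
  rw [Cech.mem_rr_of_ne hf0] at hf
  obtain ⟨Df, hDf, hdeg0⟩ := hF.hasPrincipalDivisors.exists_divisor f hf0
  have hnn : ∀ P, 0 ≤ (toDiv D + Df) P := by
    intro P
    rw [Finsupp.add_apply, hDf P]
    have := hf P
    omega
  obtain ⟨E, hE⟩ := exists_toDiv_eq hnn
  have hdE : degE E = degE D := by
    have h1 : (degE E : ℤ) = degE D := by
      rw [← degree_toDiv hF.deg_eq_one, ← degree_toDiv hF.deg_eq_one, hE, map_add, hdeg0,
        add_zero]
    exact_mod_cast h1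
  have hcls : clsHom hF.deg_eq_one inf E = clsHom hF.deg_eq_one inf D := by
    rw [clsHom_eq_iff]
    refine ⟨f⁻¹, inv_ne_zero hf0, fun v => ?_⟩
    unfold relDiv
    rw [hE, hdE, v.ord_inv, Finsupp.sub_apply, Finsupp.sub_apply, Finsupp.add_apply, hDf v]
    ring
  have hED : E ≠ D := by
    intro h
    -- then `div f = 0`, so `f` is constant
    have hz : ∀ v : Place K F, v.ord f = 0 := by
      intro v
      have := DFunLike.congr_fun hE v
      rw [h, Finsupp.add_apply, hDf v] at this
      omega
    have hmem : f ∈ riemannRochSpace (0 : Divisor K F) := by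
      rw [Cech.mem_rr_of_ne hf0]
      intro v
      rw [hz v]
      simp
    rw [hF.riemannRochSpace_zero] at hmem
    obtain ⟨c, hc⟩ := Algebra.mem_bot.1 hmem
    exact hnc c hc.symm
  obtain ⟨D'', h1, h2⟩ := exists_rep_degE_lt hF inf hcls hdE hED
  have := hD.2 D'' ((h1.trans hcls).trans hD.1)
  omega

/-- conversely, an effective divisor without `inf` and with `L(D) = K` is reduced -/
theorem isMinRep_of_const {D : Place K F →₀ ℕ} (hinf : D inf = 0)
    (hconst : ∀ f ∈ riemannRochSpace (toDiv D), ∃ c : K, f = algebraMap K F c) :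
    IsMinRep hF.deg_eq_one inf (clsHom hF.deg_eq_one inf D) D := by
  classical
  refine ⟨rfl, fun D' hD' => ?_⟩
  by_contra hlt
  push Not at hlt
  -- pad `D'` with `inf`
  set k : ℕ := degE D - degE D' with hk
  have hk1 : 1 ≤ k := by omega
  set E : Place K F →₀ ℕ := D' + Finsupp.single inf k with hE
  have hdE : degE E = degE D := by
    rw [hE, degE_add, degE_single]; omega
  have h0' : clsHom hF.deg_eq_one inf (Finsupp.single inf k) = 0 := by
    rw [clsHom_apply]
    have : (⟨relDiv inf (Finsupp.single inf k), degree_relDiv hF.deg_eq_one inf _⟩ :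
        Divisor.degZero (K := K) (F := F)) = 0 := by
      apply Subtype.ext
      show relDiv inf (Finsupp.single inf k) = 0
      unfold relDiv
      rw [toDiv_single, degE_single, sub_self]
    rw [this, Pic0.mk_zero]
  have hcls : clsHom hF.deg_eq_one inf D = clsHom hF.deg_eq_one inf E := by
    rw [hE, map_add, h0', add_zero, hD']
  obtain ⟨f, hf0, hdiv⟩ := (clsHom_eq_iff hF.deg_eq_one inf D E).1 hcls
  have hdiv' : ∀ v : Place K F, v.ord f = (E v : ℤ) - (D v : ℤ) := by
    intro v
    rw [← hdiv v]
    unfold relDiv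
    rw [hdE]
    simp
  have hmem : f ∈ riemannRochSpace (toDiv D) := by
    rw [Cech.mem_rr_of_ne hf0]
    intro v
    rw [hdiv' v, toDiv_apply]
    omega
  obtain ⟨c, hc⟩ := hconst f hmem
  have := hdiv' inf
  rw [hc, Cech.ord_const, hinf, hE, Finsupp.add_apply, Finsupp.single_eq_same] at this
  push_cast at this
  omega

end Curve

/-! ### the height -/

/-- the canonical representative (junk value if there is none) -/
def canRep (hdeg : ∀ P : Place K F, P.deg = 1) (inf : Place K F) (w : Pic0 K F) :
    Place K F →₀ ℕ :=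
  Classical.epsilon fun D => IsMinRep hdeg inf w D

/-- **the height on classes**: the additive height of the canonical representative -/
def jHeight (ht : Place K F → ℝ) (hdeg : ∀ P : Place K F, P.deg = 1) (inf : Place K F)
    (w : Pic0 K F) : ℝ :=
  hE ht (canRep hdeg inf w)

section Curve2

variable {g : ℕ} (hF : IsCurveOfGenus K F g) (inf : Place K F)
include hF

theorem canRep_spec (w : Pic0 K F) : IsMinRep hF.deg_eq_one inf w (canRep hF.deg_eq_one inf w) := by
  obtain ⟨D, hD, -⟩ := exists_isMinRep hF inf w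
  exact Classical.epsilon_spec ⟨D, hD⟩

theorem clsHom_canRep (w : Pic0 K F) : clsHom hF.deg_eq_one inf (canRep hF.deg_eq_one inf w) = w :=
  (canRep_spec hF inf w).1

theorem degE_canRep_le (w : Pic0 K F) : degE (canRep hF.deg_eq_one inf w) ≤ g := by
  obtain ⟨D, hD, hg⟩ := exists_isMinRep hF inf w
  rwa [← (canRep_spec hF inf w).unique hF inf hD] at hg

theorem canRep_eq {w : Pic0 K F} {D : Place K F →₀ ℕ} (hD : IsMinRep hF.deg_eq_one inf w D) :
    canRep hF.deg_eq_one inf w = D :=
  (canRep_spec hF inf w).unique hF inf hD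

/-- hypothesis `hcan` of `fg_of_blocks_abs` -/
theorem jHeight_spec (ht : Place K F → ℝ) (w : Pic0 K F) :
    ∃ D : Place K F →₀ ℕ, clsHom hF.deg_eq_one inf D = w ∧ degE D ≤ g ∧
      jHeight ht hF.deg_eq_one inf w = hE ht D :=
  ⟨canRep hF.deg_eq_one inf w, clsHom_canRep hF inf w, degE_canRep_le hF inf w, rfl⟩

theorem jHeight_nonneg (ht : Place K F → ℝ) (hht : ∀ P, 0 ≤ ht P) (w : Pic0 K F) :
    0 ≤ jHeight ht hF.deg_eq_one inf w :=
  hE_nonneg ht hht _

end Curve2

/-! ### equivariance under semilinear automorphisms fixing `inf` -/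

section Galois

variable (σ : SemilinearAut K F)

/-- the action on effective divisors -/
def smulEff (D : Place K F →₀ ℕ) : Place K F →₀ ℕ := D.mapDomain (σ • ·)

theorem toDiv_smulEff (D : Place K F →₀ ℕ) : toDiv (smulEff σ D) = σ • toDiv D := by
  rw [SemilinearAut.divisor_smul_def]
  exact (Finsupp.mapDomain_mapRange (σ • ·) D (Nat.cast : ℕ → ℤ) Nat.cast_zero
    (fun a b => Nat.cast_add a b)).symm

theorem degE_smulEff (D : Place K F →₀ ℕ) : degE (smulEff σ D) = degE D :=
  Finsupp.sum_mapDomain_index (fun _ => rfl) (fun _ _ _ => rfl)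

theorem hE_smulEff (ht : Place K F → ℝ) (D : Place K F →₀ ℕ) :
    hE ht (smulEff σ D) = hE (fun P => ht (σ • P)) D :=
  Finsupp.sum_mapDomain_index (fun _ => by simp) (fun _ _ _ => by push_cast; ring)

theorem smulEff_smulEff_inv (D : Place K F →₀ ℕ) : smulEff σ (smulEff σ⁻¹ D) = D := by
  unfold smulEff
  rw [← Finsupp.mapDomain_comp]
  have : ((σ • ·) ∘ (σ⁻¹ • ·) : Place K F → Place K F) = id := by
    funext P
    simp
  rw [this, Finsupp.mapDomain_id]

theorem clsHom_smulEff (hdeg : ∀ P : Place K F, P.deg = 1) {inf : Place K F}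
    (hσ : σ • inf = inf) (D : Place K F →₀ ℕ) :
    clsHom hdeg inf (smulEff σ D) = σ • clsHom hdeg inf D := by
  rw [clsHom_apply, clsHom_apply, SemilinearAut.pic0_smul_mk]
  congr 1
  apply Subtype.ext
  rw [SemilinearAut.coe_degZeroSMulHom]
  show relDiv inf (smulEff σ D) = σ • relDiv inf D
  unfold relDiv
  rw [smul_sub, SemilinearAut.smul_single, hσ, toDiv_smulEff, degE_smulEff]

theorem IsMinRep.smul (hdeg : ∀ P : Place K F, P.deg = 1) {inf : Place K F}
    (hσ : σ • inf = inf) {w : Pic0 K F} {D : Place K F →₀ ℕ} (hD : IsMinRep hdeg inf w D) :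
    IsMinRep hdeg inf (σ • w) (smulEff σ D) := by
  refine ⟨by rw [clsHom_smulEff σ hdeg hσ, hD.1], fun D' hD' => ?_⟩
  have hσ' : σ⁻¹ • inf = inf := by
    conv_lhs => rw [← hσ]
    rw [inv_smul_smul]
  have h1 : clsHom hdeg inf (smulEff σ⁻¹ D') = w := by
    rw [clsHom_smulEff σ⁻¹ hdeg hσ', hD', inv_smul_smul]
  have := hD.2 _ h1
  rwa [degE_smulEff, ← degE_smulEff σ D] at this

variable {g : ℕ} (hF : IsCurveOfGenus K F g) {inf : Place K F}
include hF

/-- the canonical representative is equivariant -/
theorem canRep_smul (hσ : σ • inf = inf) (w : Pic0 K F) :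
    canRep hF.deg_eq_one inf (σ • w) = smulEff σ (canRep hF.deg_eq_one inf w) :=
  canRep_eq hF inf ((canRep_spec hF inf w).smul σ hF.deg_eq_one hσ)

/-- the canonical representative of a fixed class is stable -/
theorem smulEff_canRep_of_fixed (hσ : σ • inf = inf) {w : Pic0 K F} (hw : σ • w = w) :
    smulEff σ (canRep hF.deg_eq_one inf w) = canRep hF.deg_eq_one inf w := by
  rw [← canRep_smul σ hF hσ, hw]

/-- the points of the canonical representative of a fixed class are permuted -/
theorem smul_mem_support_canRep (hσ : σ • inf = inf) {w : Pic0 K F} (hw : σ • w = w)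
    {P : Place K F} (hP : P ∈ (canRep hF.deg_eq_one inf w).support) :
    σ • P ∈ (canRep hF.deg_eq_one inf w).support := by
  classical
  have h := smulEff_canRep_of_fixed σ hF hσ hw
  rw [Finsupp.mem_support_iff] at hP ⊢
  rw [← h]
  unfold smulEff
  rwa [Finsupp.mapDomain_apply (MulAction.injective σ)]

/-- an invariant height of places gives an invariant height of classes -/
theorem jHeight_smul (hσ : σ • inf = inf) (ht : Place K F → ℝ) (hht : ∀ P, ht (σ • P) = ht P)
    (w : Pic0 K F) : jHeight ht hF.deg_eq_one inf (σ • w) = jHeight ht hF.deg_eq_one inf w := by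
  unfold jHeight
  rw [canRep_smul σ hF hσ, hE_smulEff]
  congr 1
  funext P
  exact hht P

end Galois

/-! ### the bridge to the objects of `Iface.lean` (`Pl inf`, `cls`, `IsInfReduced`, `CAN`) -/

section Bridge

variable {inf : Place K F}

/-- effective divisors on `Pl inf` as effective divisors on all places -/
def embPl (inf : Place K F) : (Pl inf →₀ ℕ) →+ (Place K F →₀ ℕ) :=
  Finsupp.mapDomain.addMonoidHom Subtype.val

theorem embPl_def (D : Pl inf →₀ ℕ) : embPl inf D = D.mapDomain Subtype.val := rfl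

theorem embPl_apply (D : Pl inf →₀ ℕ) (P : Pl inf) : embPl inf D P.1 = D P :=
  Finsupp.mapDomain_apply Subtype.val_injective D P

theorem embPl_inf (D : Pl inf →₀ ℕ) : embPl inf D inf = 0 := by
  refine Finsupp.mapDomain_of_notMem_range D inf ?_
  rintro ⟨P, hP⟩
  exact P.2 hP

theorem embPl_injective : Function.Injective (embPl inf) :=
  Finsupp.mapDomain_injective Subtype.val_injective

theorem embPl_single (P : Pl inf) (n : ℕ) :
    embPl inf (Finsupp.single P n) = Finsupp.single P.1 n :=
  Finsupp.mapDomain_single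

theorem degE_embPl (D : Pl inf →₀ ℕ) : degE (embPl inf D) = degE D :=
  Finsupp.sum_mapDomain_index (fun _ => rfl) (fun _ _ _ => rfl)

theorem hE_embPl (ht : Place K F → ℝ) (D : Pl inf →₀ ℕ) :
    hE ht (embPl inf D) = hE (fun P : Pl inf => ht P.1) D :=
  Finsupp.sum_mapDomain_index (fun _ => by simp) (fun _ _ _ => by push_cast; ring)

/-- an effective divisor without `inf` lives on `Pl inf` -/
theorem exists_embPl_eq {D : Place K F →₀ ℕ} (h : D inf = 0) :
    ∃ D' : Pl inf →₀ ℕ, embPl inf D' = D := by
  refine ⟨D.comapDomain Subtype.val Subtype.val_injective.injOn, ?_⟩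
  rw [embPl_def]
  refine Finsupp.mapDomain_comapDomain _ Subtype.val_injective D ?_
  intro P hP
  have hP' : D P ≠ 0 := Finsupp.mem_support_iff.1 hP
  refine ⟨⟨P, ?_⟩, rfl⟩
  rintro rfl
  exact hP' h

/-- the class map of `Iface.lean` is the restriction of `clsHom` -/
theorem cls_eq_clsHom (hdeg : ∀ P : Place K F, P.deg = 1) (D : Pl inf →₀ ℕ) :
    cls inf hdeg D = clsHom hdeg inf (embPl inf D) := by
  have h : cls inf hdeg = (clsHom hdeg inf).comp (embPl inf) := by
    refine Finsupp.addHom_ext' fun P => AddMonoidHom.ext_nat ?_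
    show cls inf hdeg (Finsupp.single P 1) = clsHom hdeg inf (embPl inf (Finsupp.single P 1))
    rw [cls_single, one_smul, embPl_single, clsHom_apply]
    congr 1
    apply Subtype.ext
    show (Finsupp.single P.1 (1 : ℤ) - Finsupp.single inf (1 : ℤ) : Divisor K F) =
      relDiv inf (Finsupp.single P.1 1)
    unfold relDiv
    rw [toDiv_single, degE_single]
    simp
  exact DFunLike.congr_fun h D

section Curve3

variable {g : ℕ} (hF : IsCurveOfGenus K F g)
include hF

/-- a representative on `Pl inf` is reduced in the sense of `Iface.lean` iff it is a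
representative of minimal degree -/
theorem isInfReduced_iff_isMinRep (D : Pl inf →₀ ℕ) :
    IsInfReduced (cls inf hF.deg_eq_one) D ↔
      IsMinRep hF.deg_eq_one inf (cls inf hF.deg_eq_one D) (embPl inf D) := by
  constructor
  · intro hD
    obtain ⟨D₀, hD₀, -⟩ := exists_isMinRep hF inf (cls inf hF.deg_eq_one D)
    obtain ⟨D₁, hD₁⟩ := exists_embPl_eq (hD₀.apply_inf hF inf)
    have h1 : degE D₁ ≤ degE D := by
      rw [← degE_embPl D₁, hD₁, ← degE_embPl D]
      exact hD₀.2 _ (cls_eq_clsHom hF.deg_eq_one D).symm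
    have h2 : cls inf hF.deg_eq_one D₁ = cls inf hF.deg_eq_one D := by
      rw [cls_eq_clsHom hF.deg_eq_one D₁, hD₁]
      exact hD₀.1
    have h3 : D₁ = D := hD D₁ h1 h2
    rw [← h3, hD₁, h3]
    exact hD₀
  · intro hD D' hdeg' hcls'
    apply embPl_injective
    have h1 : clsHom hF.deg_eq_one inf (embPl inf D') = cls inf hF.deg_eq_one D := by
      rw [← cls_eq_clsHom, hcls']
    have h2 : IsMinRep hF.deg_eq_one inf (cls inf hF.deg_eq_one D) (embPl inf D') := by
      refine ⟨h1, fun D'' hD'' => ?_⟩
      have := hD.2 D'' hD''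
      rw [degE_embPl] at this ⊢
      omega
    exact h2.unique hF inf hD

/-- **CAN** (block of `Iface.lean`): every class has a reduced representative of degree `≤ g`. -/
theorem can_of_isCurveOfGenus (inf : Place K F) : CAN (cls inf hF.deg_eq_one) g := by
  intro w
  obtain ⟨D₀, hD₀, hg⟩ := exists_isMinRep hF inf w
  obtain ⟨D, hD⟩ := exists_embPl_eq (hD₀.apply_inf hF inf)
  have hw : cls inf hF.deg_eq_one D = w := by
    rw [cls_eq_clsHom, hD]
    exact hD₀.1
  refine ⟨D, hw, ?_, ?_⟩
  · rw [← degE_embPl, hD]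
    exact hg
  · rw [isInfReduced_iff_isMinRep hF, hD, hw]
    exact hD₀

/-- reduced (in the sense of `Iface.lean`) iff `L(D) = K`, i.e. `ℓ(D) = 1` -/
theorem isInfReduced_iff_const (D : Pl inf →₀ ℕ) :
    IsInfReduced (cls inf hF.deg_eq_one) D ↔
      ∀ f ∈ riemannRochSpace (toDiv (embPl inf D)), ∃ c : K, f = algebraMap K F c := by
  rw [isInfReduced_iff_isMinRep hF]
  constructor
  · intro hD f hf
    exact hD.const_of_mem hF inf hf
  · intro h
    rw [cls_eq_clsHom]
    exact isMinRep_of_const hF inf (embPl_inf D) h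

/-- reduced iff `finrank L(D) = 1` -/
theorem isInfReduced_iff_finrank (D : Pl inf →₀ ℕ) :
    IsInfReduced (cls inf hF.deg_eq_one) D ↔
      Module.finrank K (riemannRochSpace (toDiv (embPl inf D))) = 1 := by
  have hfin := hF.finiteDimensional (toDiv (embPl inf D))
  have hbot : (⊥ : Subalgebra K F).toSubmodule ≤ riemannRochSpace (toDiv (embPl inf D)) := by
    rw [← hF.riemannRochSpace_zero]
    exact Cech.rr_mono fun v => by simp
  rw [isInfReduced_iff_const hF]
  constructor
  · intro h
    have hle : riemannRochSpace (toDiv (embPl inf D)) ≤ (⊥ : Subalgebra K F).toSubmodule := by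
      intro f hf
      obtain ⟨c, rfl⟩ := h f hf
      exact Subalgebra.algebraMap_mem ⊥ c
    rw [le_antisymm hle hbot]
    exact Subalgebra.finrank_bot
  · intro h f hf
    have heq : (⊥ : Subalgebra K F).toSubmodule = riemannRochSpace (toDiv (embPl inf D)) := by
      refine Submodule.eq_of_le_of_finrank_eq hbot ?_
      rw [h]
      exact Subalgebra.finrank_bot
    rw [← heq] at hf
    obtain ⟨c, hc⟩ := Algebra.mem_bot.1 hf
    exact ⟨c, hc.symm⟩

/-- the class height of `Iface.lean` is the height of the canonical representative -/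
theorem classHeight_eq_jHeight (ht : Place K F → ℝ) (w : Pic0 K F) :
    classHeight (fun P : Pl inf => ht P.1) (cls inf hF.deg_eq_one) w =
      jHeight ht hF.deg_eq_one inf w := by
  obtain ⟨D, hw, -, hD⟩ := can_of_isCurveOfGenus hF inf w
  rw [classHeight_eq _ _ hw hD]
  rw [isInfReduced_iff_isMinRep hF, hw] at hD
  unfold jHeight
  rw [canRep_eq hF inf hD, hE_embPl]

/-- in genus zero the class group is trivial -/
theorem pic0_eq_zero_of_genus_zero (hg : g = 0) (w : Pic0 K F) : w = 0 := by
  have inf : Place K F := hF.infinite_places.nonempty.some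
  obtain ⟨D, hD, hd⟩ := exists_isMinRep hF inf w
  have hD0 : D = 0 := by
    ext P
    by_contra hP
    have hPs : P ∈ D.support := Finsupp.mem_support_iff.2 hP
    have : D P ≤ degE D :=
      Finset.single_le_sum (f := fun P => D P) (fun _ _ => Nat.zero_le _) hPs
    have hP' : D P ≠ 0 := hP
    omega
  rw [← hD.1, hD0, map_zero]

end Curve3

end Bridge

end Fermat.Agent.S17lib
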