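/-
S17lib / Top  (helper2, at the request of the chief architect helper7) — Project G (S17):
the frozen S17 conclusion from EXACTLY TWO inputs,

* helper1's `Red.RedStmt` (block RED: `red_core : RedSetting g inf t → RedStmt inf t`), and
* helper7's purely geometric `GENDIV (cInf N) hdeg g m` for all odd `m` (blocks DIV/SPEC + DEG);

everything else is discharged here: (CAN), (NC), (TORS), (WMW) and the function `t` (helper2, `NC/*`,
`WMW/*`), divisibility of `J₀(N)(ℚ̄)` (S15lib U1), `0 ≤ h1` (helper8), bounded-degree Northcott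
(helper9), block CRV (helper8, `crv_chief`), the bridge `RedStmt → RED` (`NC/RedBridge`, with helper3's
`Height.lean`), the glue `cm_of_gendiv` and the assembly `s17_of_blocks` (helper7, helper3, helper9).
-/
import Mathlib
import Fermat.Agent.S17lib.NC.Four
import Fermat.Agent.S17lib.NC.RedBridge
import Fermat.Agent.S17lib.HT.NorthcottQb
import Fermat.Agent.S17lib.CRV.Chief

set_option autoImplicit false
set_option linter.unusedSectionVars false

noncomputable section

namespace Fermat.Agent.S17lib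

open AlgebraicCurve ModularCurve IntermediateField
open Fermat.Agent.S15lib Fermat.Agent.S17lib.WMW Fermat.Agent.S17lib.Red Fermat.Agent.S17lib.NC

local notation "Qb" => AlgebraicClosure ℚ
local notation "GQ" => (AlgebraicClosure ℚ ≃ₐ[ℚ] AlgebraicClosure ℚ)

universe w

variable (N : ℕ) [NeZero N]

/-- a nonconstant function on `X₀(N)` has positive degree -/
theorem funDeg_pos_of_nonconst {t : FB N} (htc : ∀ c : Qb, t ≠ algebraMap Qb (FB N) c) :
    0 < funDeg Qb t := by
  have htr : Transcendental Qb t := by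
    intro halg
    obtain ⟨c, hc⟩ := const_of_isIntegral t halg.isIntegral
    exact htc c hc
  have : FiniteDimensional Qb⟮t⟯ (FB N) := S37lib.HeckeInst.finiteDimensional_adjoin N htr
  exact Module.finrank_pos

/-- **S17 from `RedStmt` (RED) and `GENDIV` (DIV/SPEC + DEG).** -/
theorem s17_of_redStmt_gendiv
    (hRED : ∀ (g : ℕ) (t : FB N), RedSetting g (Cusp.cInf N) t → RedStmt (Cusp.cInf N) t)
    (hGEN : ∀ g : ℕ, 1 ≤ g → CAN (cls (Cusp.cInf N) (S37lib.HeckeInst.deg_eq_one N)) g →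
      ∀ m : ℕ, Odd m → GENDIV.{0, 0, w} (Cusp.cInf N) (S37lib.HeckeInst.deg_eq_one N) g m) :
    AddGroup.FG ↥(FixedPoints.addSubgroup GQ (JZero N)) := by
  obtain ⟨g₀, hF, -⟩ := S18lib.Gin0.exists_isCurveOfGenus_FBar N
  refine s17_of_red_cm_t N HT.h1 HT.h1_nonneg HT.finite_natDegree_le_h1_le
    fun t htc ht hreg g hg hCAN => ?_
  have hS : RedSetting g₀ (Cusp.cInf N) t :=
    ⟨hF, hreg, pole_of_nonconst hF (Cusp.cInf N) htc hreg⟩
  have hred : RED (ptHeight HT.h1 t (Cusp.cInf N))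
      (cls (Cusp.cInf N) (S37lib.HeckeInst.deg_eq_one N)) g :=
    red_of_redStmt hS (hRED g₀ t hS) g hCAN
  exact ⟨hred, cm_of_gendiv HT.h1 HT.h1_nonneg t (funDeg_pos_of_nonconst N htc) (Cusp.cInf N)
    (S37lib.HeckeInst.deg_eq_one N) hreg g hg hCAN hred (div_JZero N)
    (fun L _ _ => CRV.crv_chief L) (hGEN g hg hCAN)⟩

/-- **S17 from `RedStmt` (RED) and `GENDIV` (DIV/SPEC + DEG), with the TRUE genus exposed**: the
producer of `GENDIV` receives `hF : IsCurveOfGenus Qb (FB N) g₀` and has to deliver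
`GENDIV … (max g₀ 1) m` (genus zero: `gendiv_of_genus_zero`; `1 ≤ g₀`: the main case at `g₀`, then
`gendiv_mono`). -/
theorem s17_of_redStmt_gendiv_genus
    (hRED : ∀ (g : ℕ) (t : FB N), RedSetting g (Cusp.cInf N) t → RedStmt (Cusp.cInf N) t)
    (hGEN : ∀ g₀ : ℕ, S18lib.IsCurveOfGenus Qb (FB N) g₀ → ∀ m : ℕ, Odd m →
      GENDIV.{0, 0, w} (Cusp.cInf N) (S37lib.HeckeInst.deg_eq_one N) (max g₀ 1) m) :
    AddGroup.FG ↥(FixedPoints.addSubgroup GQ (JZero N)) := by
  obtain ⟨g₀, hF, -⟩ := S18lib.Gin0.exists_isCurveOfGenus_FBar N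
  obtain ⟨t, htc, ht, hreg⟩ := exists_t N
  have hg : 1 ≤ max g₀ 1 := le_max_right _ _
  have hCAN : CAN (cls (Cusp.cInf N) (S37lib.HeckeInst.deg_eq_one N)) (max g₀ 1) :=
    can_mono (NC.can_of_isCurveOfGenus hF (Cusp.cInf N) (S37lib.HeckeInst.deg_eq_one N))
      (le_max_left _ _)
  have hS : RedSetting g₀ (Cusp.cInf N) t :=
    ⟨hF, hreg, pole_of_nonconst hF (Cusp.cInf N) htc hreg⟩
  have hred : RED (ptHeight HT.h1 t (Cusp.cInf N))
      (cls (Cusp.cInf N) (S37lib.HeckeInst.deg_eq_one N)) (max g₀ 1) :=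
    red_of_redStmt hS (hRED g₀ t hS) (max g₀ 1) hCAN
  have hcm : CM (ptHeight HT.h1 t (Cusp.cInf N))
      (cls (Cusp.cInf N) (S37lib.HeckeInst.deg_eq_one N)) (max g₀ 1) :=
    cm_of_gendiv HT.h1 HT.h1_nonneg t (funDeg_pos_of_nonconst N htc) (Cusp.cInf N)
      (S37lib.HeckeInst.deg_eq_one N) hreg (max g₀ 1) hg hCAN hred (div_JZero N)
      (fun L _ _ => CRV.crv_chief L) (hGEN g₀ hF)
  exact s17_of_blocks N HT.h1 t (Cusp.cInf N) (S37lib.HeckeInst.deg_eq_one N) (max g₀ 1) hg hCAN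
    hred hcm (tors_JZero N) (wmw_JQ N)
    (nc_FB N t htc ht HT.h1 HT.h1_nonneg HT.finite_natDegree_le_h1_le (max g₀ 1) hCAN)

end Fermat.Agent.S17lib
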