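/-
S17lib / Compositum  (helper1) — Project G, block GENDIV, a field-theory brick.

`F / K` a function field of one variable (`F` finite over `K(x)`, `x` transcendental), `Ω ⊇ K` a
field with an embedding `η : F →ₐ[K] Ω` over which `Ω` is algebraic (e.g. `Ω = AlgebraicClosure F`),
`σ j : F →ₐ[K] Ω` finitely many further embeddings and `T ⊆ Ω` a finite set.  Then there is an
intermediate field `L` of `Ω / K` containing `η F`, all `σ j F` and `T`, which is FINITE over `η F`
and over every `σ j F` (in the Prelude's vocabulary `FiniteAlong`, `finrankAlong`), and is again a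
function field of one variable over `K`.
-/
import Mathlib
import Fermat.Prelude.Def_AlgebraicCurve_Correspondence
import Fermat.Agent.ProgramR.RHLocal.Global

set_option autoImplicit false
set_option linter.style.haveILetI false

noncomputable section

namespace Fermat.Agent.S17lib.Compositum

open AlgebraicCurve IntermediateField

variable {K F L : Type*} [Field K] [Field F] [Algebra K F] [Field L] [Algebra K L]

/-- the isomorphism `K(x) ≃ K(φ x)` induced by an embedding `φ` -/
def adjoinEquiv (φ : F →ₐ[K] L) (x : F) : K⟮x⟯ ≃ₐ[K] K⟮φ x⟯ :=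
  ((K⟮x⟯).equivMap φ).trans
    (IntermediateField.equivOfEq (by rw [adjoin_map, Set.image_singleton]))

theorem adjoinEquiv_apply (φ : F →ₐ[K] L) (x : F) (y : K⟮x⟯) :
    ((adjoinEquiv φ x y : K⟮φ x⟯) : L) = φ (y : F) := rfl

/-- `L` finite over `φ F` implies `L` finite over `K(φ x)` -/
theorem finiteDimensional_adjoin_of_finiteAlong (φ : F →ₐ[K] L) (x : F)
    [FiniteDimensional K⟮x⟯ F] (h : FiniteAlong K φ) : FiniteDimensional K⟮φ x⟯ L := by
  letI := algebraAlong φ
  haveI : Module.Finite F L := h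
  letI i1 : Algebra K⟮x⟯ L := (φ.toRingHom.comp (algebraMap K⟮x⟯ F)).toAlgebra
  haveI : IsScalarTower K⟮x⟯ F L := IsScalarTower.of_algebraMap_eq fun y => rfl
  haveI i2 : Module.Finite K⟮x⟯ L := Module.Finite.trans F L
  have he : (algebraMap K⟮φ x⟯ L).comp ((adjoinEquiv φ x).toRingEquiv : K⟮x⟯ →+* K⟮φ x⟯)
      = ((RingEquiv.refl L : L ≃+* L) : L →+* L).comp (algebraMap K⟮x⟯ L) := by
    ext y
    rfl
  exact @Module.Finite.of_equiv_equiv K⟮x⟯ L K⟮φ x⟯ L _ _ _ _ i1 _ _ _ he i2

/-- `L` finite over `K(φ x)` implies `L` finite over `φ F` -/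
theorem finiteAlong_of_finiteDimensional_adjoin (φ : F →ₐ[K] L) (x : F)
    [FiniteDimensional K⟮φ x⟯ L] : FiniteAlong K φ := by
  letI := algebraAlong φ
  letI i1 : Algebra K⟮x⟯ L := (φ.toRingHom.comp (algebraMap K⟮x⟯ F)).toAlgebra
  haveI : IsScalarTower K⟮x⟯ F L := IsScalarTower.of_algebraMap_eq fun y => rfl
  have he : (algebraMap K⟮x⟯ L).comp ((adjoinEquiv φ x).symm.toRingEquiv : K⟮φ x⟯ →+* K⟮x⟯)
      = ((RingEquiv.refl L : L ≃+* L) : L →+* L).comp (algebraMap K⟮φ x⟯ L) := by
    ext y
    show φ (((adjoinEquiv φ x).symm y : K⟮x⟯) : F) = (y : L)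
    rw [← adjoinEquiv_apply, AlgEquiv.apply_symm_apply]
  haveI i2 : Module.Finite K⟮x⟯ L :=
    @Module.Finite.of_equiv_equiv K⟮φ x⟯ L K⟮x⟯ L _ _ _ _ _ i1 _ _ he inferInstance
  exact Module.Finite.of_restrictScalars_finite K⟮x⟯ F L

theorem finrankAlong_pos_of_finiteAlong (φ : F →ₐ[K] L) (h : FiniteAlong K φ) :
    0 < finrankAlong K φ := by
  letI := algebraAlong φ
  haveI : Module.Finite F L := h
  exact Module.finrank_pos

theorem isIntegral_of_finiteAlong (φ : F →ₐ[K] L) (h : FiniteAlong K φ) :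
    φ.toRingHom.IsIntegral := by
  letI := algebraAlong φ
  haveI : Module.Finite F L := h
  exact fun y => (Algebra.IsIntegral.of_finite F L).isIntegral y

/-- the image of a transcendental element under an embedding is transcendental -/
theorem transcendental_map (φ : F →ₐ[K] L) {x : F} (hx : Transcendental K x) :
    Transcendental K (φ x) := fun h =>
  hx ((isAlgebraic_algHom_iff φ φ.toRingHom.injective).mp h)

/-- **finiteness over one embedding passes to every other embedding** -/
theorem finiteAlong_of_finiteAlong (φ ψ : F →ₐ[K] L) (x : F) (hx : Transcendental K x)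
    [FiniteDimensional K⟮x⟯ F] (h : FiniteAlong K φ) : FiniteAlong K ψ := by
  haveI := finiteDimensional_adjoin_of_finiteAlong φ x h
  haveI : FiniteDimensional K⟮ψ x⟯ L :=
    Fermat.Agent.ProgramR.RHLocal.finiteDimensional_adjoin_of_transcendental (x := φ x)
      (transcendental_map ψ hx)
  exact finiteAlong_of_finiteDimensional_adjoin ψ x

/-- a function field of one variable is a finitely generated field -/
theorem exists_finset_adjoin_eq_top (x : F) [FiniteDimensional K⟮x⟯ F] :
    ∃ gens : Finset F, adjoin K (gens : Set F) = ⊤ := by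
  classical
  let b := Module.finBasis K⟮x⟯ F
  refine ⟨insert x (Finset.univ.image b), ?_⟩
  rw [eq_top_iff]
  intro y _
  have hxmem : x ∈ adjoin K ((insert x (Finset.univ.image b) : Finset F) : Set F) :=
    subset_adjoin K _ (by simp)
  have hle : K⟮x⟯ ≤ adjoin K ((insert x (Finset.univ.image b) : Finset F) : Set F) := by
    rw [adjoin_le_iff]
    rintro z (rfl : z = x)
    exact hxmem
  have hy : y = ∑ i, b.repr y i • b i := (b.sum_repr y).symm
  rw [hy]
  refine sum_mem fun i _ => ?_
  rw [Algebra.smul_def]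
  refine mul_mem (hle (b.repr y i).2) (subset_adjoin K _ ?_)
  simp


variable {Ω : Type*} [Field Ω] [Algebra K Ω]

/-- **the compositum**: a finitely generated subfield `L` of `Ω / K` containing `η F`, all `σ j F`
and the finite set `T`, finite over `η F` and over every `σ j F`. -/
theorem exists_compositum (x : F) (hx : Transcendental K x) [FiniteDimensional K⟮x⟯ F]
    (η : F →ₐ[K] Ω) (hΩ : η.toRingHom.IsIntegral)
    {d : ℕ} (σ : Fin d → F →ₐ[K] Ω) (T : Finset Ω) :
    ∃ (L : IntermediateField K Ω) (η' : F →ₐ[K] L) (σ' : Fin d → F →ₐ[K] L),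
      (∀ f, (η' f : Ω) = η f) ∧ (∀ j f, (σ' j f : Ω) = σ j f) ∧ (∀ ω ∈ T, ω ∈ L) ∧
      FiniteAlong K η' ∧ 0 < finrankAlong K η' ∧ η'.toRingHom.IsIntegral ∧
      (∀ j, FiniteAlong K (σ' j) ∧ 0 < finrankAlong K (σ' j) ∧ (σ' j).toRingHom.IsIntegral) ∧
      Transcendental K (η' x) ∧ FiniteDimensional K⟮η' x⟯ L := by
  classical
  obtain ⟨gens, hgens⟩ := exists_finset_adjoin_eq_top (K := K) x
  letI iF : Algebra F Ω := algebraAlong η
  haveI : IsScalarTower K F Ω := isScalarTower_along η
  set G : Set Ω := (⋃ j, (σ j) '' (gens : Set F)) ∪ (T : Set Ω) with hG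
  have hGfin : G.Finite :=
    (Set.finite_iUnion fun j => (Finset.finite_toSet gens).image _).union (Finset.finite_toSet T)
  haveI : Finite G := hGfin.to_subtype
  have hGint : ∀ ω ∈ G, IsIntegral F ω := fun ω _ => hΩ ω
  haveI hfd : FiniteDimensional F (adjoin F G) := IntermediateField.finiteDimensional_adjoin hGint
  set L : IntermediateField K Ω := (adjoin F G).restrictScalars K with hL
  have hGL : G ⊆ (L : Set Ω) := fun ω hω => subset_adjoin F G hω
  have hηL : ∀ f, η f ∈ L := fun f => (adjoin F G).algebraMap_mem f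
  have hσL : ∀ j f, σ j f ∈ L := by
    intro j f
    have h1 : (σ j).fieldRange ≤ L := by
      rw [AlgHom.fieldRange_eq_map, ← hgens, adjoin_map, adjoin_le_iff]
      exact fun ω hω => hGL (Or.inl (Set.mem_iUnion.mpr ⟨j, hω⟩))
    exact h1 ⟨f, rfl⟩
  set η' : F →ₐ[K] L := η.codRestrict L.toSubalgebra hηL with hη'
  set σ' : Fin d → F →ₐ[K] L := fun j => (σ j).codRestrict L.toSubalgebra (hσL j) with hσ'
  -- finiteness over `η F`
  have hfin : FiniteAlong K η' := by
    letI i1 : Algebra F (adjoin F G) := inferInstance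
    letI i2 : Algebra F L := algebraAlong η'
    let e₂ : (adjoin F G) ≃+* L := RingEquiv.refl _
    have he : (algebraMap F L).comp ((RingEquiv.refl F : F ≃+* F) : F →+* F)
        = (e₂ : (adjoin F G) →+* L).comp (algebraMap F (adjoin F G)) := by
      ext f
      rfl
    exact @Module.Finite.of_equiv_equiv F (adjoin F G) F L _ _ _ _ i1 i2 _ _ he hfd
  haveI hfdL : FiniteDimensional K⟮η' x⟯ L := finiteDimensional_adjoin_of_finiteAlong η' x hfin
  refine ⟨L, η', σ', fun f => rfl, fun j f => rfl, fun ω hω => hGL (Or.inr hω), hfin,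
    finrankAlong_pos_of_finiteAlong η' hfin, isIntegral_of_finiteAlong η' hfin, fun j => ?_,
    transcendental_map η' hx, hfdL⟩
  have hj : FiniteAlong K (σ' j) := finiteAlong_of_finiteAlong η' (σ' j) x hx hfin
  exact ⟨hj, finrankAlong_pos_of_finiteAlong _ hj, isIntegral_of_finiteAlong _ hj⟩


/-- the case `Ω` = an algebraic extension of `F` (e.g. `AlgebraicClosure F`) with its structural
embedding -/
theorem exists_compositum_of_isAlgebraic [Algebra F Ω] [IsScalarTower K F Ω]
    [Algebra.IsAlgebraic F Ω] (x : F) (hx : Transcendental K x) [FiniteDimensional K⟮x⟯ F]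
    {d : ℕ} (σ : Fin d → F →ₐ[K] Ω) (T : Finset Ω) :
    ∃ (L : IntermediateField K Ω) (η' : F →ₐ[K] L) (σ' : Fin d → F →ₐ[K] L),
      (∀ f, (η' f : Ω) = algebraMap F Ω f) ∧ (∀ j f, (σ' j f : Ω) = σ j f) ∧ (∀ ω ∈ T, ω ∈ L) ∧
      FiniteAlong K η' ∧ 0 < finrankAlong K η' ∧ η'.toRingHom.IsIntegral ∧
      (∀ j, FiniteAlong K (σ' j) ∧ 0 < finrankAlong K (σ' j) ∧ (σ' j).toRingHom.IsIntegral) ∧
      Transcendental K (η' x) ∧ FiniteDimensional K⟮η' x⟯ L := by
  have hΩ : (IsScalarTower.toAlgHom K F Ω).toRingHom.IsIntegral := fun ω =>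
    (Algebra.IsAlgebraic.isAlgebraic (R := F) ω).isIntegral
  exact exists_compositum x hx (IsScalarTower.toAlgHom K F Ω) hΩ σ T

end Fermat.Agent.S17lib.Compositum
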