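/-
S17lib/GenDivAdapt.lean  (Project G; chief architect helper7)

The (SPEC) half of `GENDIV` in the shape of the contract (`GenDivData.lean`): from the `Ω`-level
datum `OmegaData` and the `L`-level datum `LData`, via helper2's `GenDivSpec.spec_clause`, helper1's
`LS.exists_localSetup` (the local setup at every place of `L`) and helper4's
`CCR.isAlgebraic_intermediateField`.
-/
import Mathlib
import Fermat.Agent.S17lib.GenDivData
import Fermat.Agent.S17lib.GenDiv.SpecCCR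
import Fermat.Agent.S17lib.GenDiv.LocalSetup
import Fermat.Agent.S17lib.CCR.Header

set_option autoImplicit false
set_option linter.unusedSectionVars false
set_option linter.style.haveILetI false

open AlgebraicCurve IntermediateField

namespace Fermat.Agent.S17lib

noncomputable section

open Fermat.Agent.S17lib.GenDivSpec Fermat.Agent.S17lib.DegChain Fermat.Agent.S17lib.CCR
open Fermat.Agent.ProgramR Fermat.Agent.S18lib

variable {k Ω Fk FΩ : Type*} [Field k] [Field Ω] [Field Fk] [Field FΩ]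
  [Algebra k Ω] [Algebra k Fk] [Algebra Ω FΩ] [Algebra k FΩ] [IsScalarTower k Ω FΩ]
  [Algebra Fk Ω] [IsScalarTower k Fk Ω]

/-- the `L`-package of the compositum: `Ω / L` is algebraic -/
theorem LData.isAlgebraic [Algebra.IsAlgebraic Fk Ω] {d : ℕ} {σ' : Fin d → Fk →ₐ[k] Ω} {y₀ : Fk}
    {L : IntermediateField k Ω} {η : Fk →ₐ[k] L} {σ : Fin d → Fk →ₐ[k] L}
    (hL : LData σ' y₀ L η σ) : Algebra.IsAlgebraic L Ω :=
  isAlgebraic_intermediateField L fun f => by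
    rw [← hL.eta_coe f]
    exact (η f).2

/-- the generic point `η'` realizes the `L`-point `η` -/
theorem OmegaData.realizes_eta {ι : Fk →ₐ[k] FΩ} {inf : Place k Fk} {g m : ℕ}
    {cst : Place k Fk → Place Ω FΩ} {η' : Place Ω FΩ} {d : ℕ} {Q' : Fin d → Place Ω FΩ}
    {σ' : Fin d → Fk →ₐ[k] Ω} {B₀ E₀ : Divisor k Fk} {φ : FΩ}
    (h : OmegaData ι inf g m cst η' d Q' σ' B₀ E₀ φ) {y₀ : Fk}
    {L : IntermediateField k Ω} {η : Fk →ₐ[k] L} {σ : Fin d → Fk →ₐ[k] L}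
    (hL : LData σ' y₀ L η σ) :
    Realizes ι (KPt.gen η hL.eta_int : KPt k Fk L) η' := by
  intro f
  have := h.eta_val f
  rw [← hL.eta_coe f] at this
  exact this

/-- the division point `Q' j` realizes the `L`-point `σ j` -/
theorem OmegaData.realizes_Q {ι : Fk →ₐ[k] FΩ} {inf : Place k Fk} {g m : ℕ}
    {cst : Place k Fk → Place Ω FΩ} {η' : Place Ω FΩ} {d : ℕ} {Q' : Fin d → Place Ω FΩ}
    {σ' : Fin d → Fk →ₐ[k] Ω} {B₀ E₀ : Divisor k Fk} {φ : FΩ}
    (h : OmegaData ι inf g m cst η' d Q' σ' B₀ E₀ φ) {y₀ : Fk}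
    {L : IntermediateField k Ω} {η : Fk →ₐ[k] L} {σ : Fin d → Fk →ₐ[k] L}
    (hL : LData σ' y₀ L η σ) (j : Fin d) :
    Realizes ι (KPt.gen (σ j) (hL.sigma_fin j).2.2 : KPt k Fk L) (Q' j) := by
  intro f
  have := h.Q_val j f
  rw [← hL.sigma_coe j f] at this
  exact this

/-- the constant place `cst p` realizes the constant point `p` -/
theorem OmegaData.realizes_cst {ι : Fk →ₐ[k] FΩ} {inf : Place k Fk} {g m : ℕ}
    {cst : Place k Fk → Place Ω FΩ} {η' : Place Ω FΩ} {d : ℕ} {Q' : Fin d → Place Ω FΩ}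
    {σ' : Fin d → Fk →ₐ[k] Ω} {B₀ E₀ : Divisor k Fk} {φ : FΩ}
    (h : OmegaData ι inf g m cst η' d Q' σ' B₀ E₀ φ) (L : IntermediateField k Ω)
    (p : Place k Fk) : Realizes ι (KPt.const p : KPt k Fk L) (cst p) :=
  fun f => h.cst_ord p f

/-- the relation over `Ω` in divisor form -/
theorem OmegaData.rel {ι : Fk →ₐ[k] FΩ} {inf : Place k Fk} {g m : ℕ}
    {cst : Place k Fk → Place Ω FΩ} {η' : Place Ω FΩ} {d : ℕ} {Q' : Fin d → Place Ω FΩ}
    {σ' : Fin d → Fk →ₐ[k] Ω} {B₀ E₀ : Divisor k Fk} {φ : FΩ}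
    (h : OmegaData ι inf g m cst η' d Q' σ' B₀ E₀ φ) :
    (m • (∑ j, Finsupp.single (Q' j) (1 : ℤ) + Finsupp.mapDomain cst (E₀ - B₀))
      - Finsupp.single η' (1 : ℤ) + Finsupp.single (cst inf) (1 : ℤ) : Divisor Ω FΩ) ∈
        Divisor.principal (K := Ω) (F := FΩ) := by
  refine ⟨φ, h.phi_ne, fun P => ?_⟩
  rw [h.ord_phi P]
  simp only [Finsupp.add_apply, Finsupp.sub_apply, Finsupp.smul_apply, nsmul_eq_mul]
  ring

/-- **(SPEC) in the shape of the contract.** -/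
theorem spec_of_contract [CharZero k] [IsAlgClosed k] [IsAlgClosed Ω] [Algebra.IsAlgebraic Fk Ω]
    {ι : Fk →ₐ[k] FΩ} (hc : ConstExt Ω ι) {g : ℕ} (hFk : IsCurveOfGenus k Fk g)
    (hFΩ : IsCurveOfGenus Ω FΩ g) {y₀ : Fk} (hy₀ : Transcendental k y₀)
    [FiniteDimensional k⟮y₀⟯ Fk] (inf : Place k Fk) (hdeg : ∀ P : Place k Fk, P.deg = 1) (m : ℕ)
    {cst : Place k Fk → Place Ω FΩ} {η' : Place Ω FΩ} {d : ℕ} {Q' : Fin d → Place Ω FΩ}
    {σ' : Fin d → Fk →ₐ[k] Ω} {B₀ E₀ : Divisor k Fk} {φ : FΩ}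
    (hΩ : OmegaData ι inf g m cst η' d Q' σ' B₀ E₀ φ)
    (L : IntermediateField k Ω) (η : Fk →ₐ[k] L) (σ : Fin d → Fk →ₐ[k] L)
    (hL : LData σ' y₀ L η σ) :
    ∀ P : Place k Fk, ∃ (x : Place k L) (Q : Fin d → Place k Fk),
      LiesOver η x P ∧ (∀ j, LiesOver (σ j) x (Q j)) ∧
      m • (Pic0.mk (constClass inf hdeg d (E₀ - B₀) hΩ.degC)
        + ∑ j, Pic0.mk (ptDiv inf hdeg (Q j))) = Pic0.mk (ptDiv inf hdeg P) := by
  haveI := hL.fd
  haveI : HasPrincipalDivisors k L := FF.hasPrincipalDivisors (η y₀) hL.transc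
  have hdegL : ∀ x : Place k L, x.deg = 1 := fun x => FF.deg_eq_one (η y₀) x
  haveI : Algebra.IsAlgebraic L Ω := hL.isAlgebraic
  refine spec_clause hc hFk hFΩ y₀ hdegL ?_ inf hdeg m d η hL.eta_int hL.eta_fin σ
    (fun j => (hL.sigma_fin j).2.2) η' Q' cst (E₀ - B₀) hΩ.degC (hΩ.realizes_eta hL)
    (fun j => hΩ.realizes_Q hL j) (fun p => hΩ.realizes_cst L p) hΩ.rel
  intro x
  obtain ⟨A, i1, i2, i3, i4, h, D, hD, hcomap, -⟩ :=
    LS.exists_localSetup hc hFk hy₀ x (hdegL x)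
  exact ⟨A, i1, i2, i3, i4, h, D, hD, LS.mem_iff hcomap⟩

end

end Fermat.Agent.S17lib
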