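/-
S17lib/GenDivFinal.lean  (Project G; chief architect helper7)

The FINAL ASSEMBLY of `GENDIV`:

* `gendiv_of_halves`   : `GENDIV` from its two clauses (SPEC) and (DEG) with `S := ∅`;
* `gendiv_generic`     : from the `Ω`-level division datum (`OmegaData`, F1), choose the reference
  point `r₀`, the finite set `T ⊂ Ω` of leading coefficients, the compositum `L ⊂ Ω`
  (helper1's `exists_compositum_of_isAlgebraic`), and combine the two halves;
* `gendiv_of_constExt` : `GENDIV` for a constant field extension `ι : Fk → FΩ` to an algebraic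
  closure `Ω` of `Fk` (genus `g ≥ 1`): F1 = helper4's `exists_omega_data`, (SPEC) =
  `spec_of_contract` (helper2 + helper1), (DEG) = the contract `DegContract`;
* `gendiv_modular_of`  : the modular instance (`X₀(N)`, `Ω = AlgebraicClosure (FBar N)`).
-/
import Mathlib
import Fermat.Agent.S17lib.GenDivAdapt
import Fermat.Agent.S17lib.Compositum
import Fermat.Agent.S17lib.CCR.DivOmega
import Fermat.Agent.S17lib.GenDiv.GenusZero

set_option autoImplicit false
set_option linter.unusedSectionVars false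
set_option linter.style.haveILetI false

open AlgebraicCurve IntermediateField

namespace Fermat.Agent.S17lib

noncomputable section

open Fermat.Agent.S17lib.GenDivSpec Fermat.Agent.S15lib.Weil Fermat.Agent.S17lib.CCR
open Fermat.Agent.S18lib

universe u v w

/-- `GENDIV` from its two clauses, without exceptional places. -/
theorem gendiv_of_halves {K : Type u} {F : Type v} [Field K] [Field F] [Algebra K F]
    (inf : Place K F) (hdeg : ∀ P : Place K F, P.deg = 1) (g m d : ℕ) (hd : d ≤ g)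
    {L : Type w} [Field L] [Algebra K L] (η : F →ₐ[K] L) (σ : Fin d → F →ₐ[K] L)
    (b₀ : Pic0 K F) (hpos : 0 < finrankAlong K η)
    (hSPEC : ∀ P : Place K F, ∃ (x : Place K L) (Q : Fin d → Place K F),
      LiesOver η x P ∧ (∀ j, LiesOver (σ j) x (Q j)) ∧
      m • (b₀ + ∑ j, Pic0.mk (ptDiv inf hdeg (Q j))) = Pic0.mk (ptDiv inf hdeg P))
    (hDEG : m ^ 2 * ∑ j, finrankAlong K (σ j) ≤ g * finrankAlong K η) :
    GENDIV.{u, v, w} inf hdeg g m :=
  ⟨L, inferInstance, inferInstance, η, d, σ, b₀, ∅, hd, Set.finite_empty, hpos,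
    fun P _ => hSPEC P, hDEG⟩

variable {k : Type u} {Ω : Type w} {Fk : Type v} {FΩ : Type*} [Field k] [Field Ω] [Field Fk]
  [Field FΩ] [Algebra k Ω] [Algebra k Fk] [Algebra Ω FΩ] [Algebra k FΩ] [IsScalarTower k Ω FΩ]
  [Algebra Fk Ω] [IsScalarTower k Fk Ω]

/-- **`GENDIV` from the `Ω`-level datum and the two halves.** -/
theorem gendiv_generic [CharZero k] [Algebra.IsAlgebraic Fk Ω] [RatPlaces Ω FΩ]
    [Infinite (Place k Fk)]
    (ι : Fk →ₐ[k] FΩ) {g : ℕ} {y₀ : Fk} (hy₀ : Transcendental k y₀) [FiniteDimensional k⟮y₀⟯ Fk]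
    (inf : Place k Fk) (hdeg : ∀ P : Place k Fk, P.deg = 1) (m : ℕ)
    {cst : Place k Fk → Place Ω FΩ} {η' : Place Ω FΩ} {d : ℕ} {Q' : Fin d → Place Ω FΩ}
    {σ' : Fin d → Fk →ₐ[k] Ω} {B₀ E₀ : Divisor k Fk} {φ : FΩ}
    (hΩ : OmegaData ι inf g m cst η' d Q' σ' B₀ E₀ φ)
    (hSPEC : ∀ (L : IntermediateField k Ω) (η : Fk →ₐ[k] L) (σ : Fin d → Fk →ₐ[k] L),
      LData σ' y₀ L η σ → ∀ P : Place k Fk, ∃ (x : Place k L) (Q : Fin d → Place k Fk),
        LiesOver η x P ∧ (∀ j, LiesOver (σ j) x (Q j)) ∧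
        m • (Pic0.mk (constClass inf hdeg d (E₀ - B₀) hΩ.degC)
          + ∑ j, Pic0.mk (ptDiv inf hdeg (Q j))) = Pic0.mk (ptDiv inf hdeg P))
    (hDEG : ∀ r₀ : Place k Fk, B₀ r₀ = 0 → E₀ r₀ = 0 → r₀ ≠ inf →
      ∀ (L : IntermediateField k Ω) (η : Fk →ₐ[k] L) (σ : Fin d → Fk →ₐ[k] L),
      LData σ' y₀ L η σ → DegRat ι m cst η' Q' σ' φ y₀ r₀ L →
        m ^ 2 * ∑ j, finrankAlong k (σ j) ≤ g * finrankAlong k η) :
    GENDIV.{u, v, w} inf hdeg g m := by
  classical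
  -- the reference point
  obtain ⟨r₀, hr₀⟩ := Infinite.exists_notMem_finset (B₀.support ∪ E₀.support ∪ {inf})
  have hB : B₀ r₀ = 0 := by
    by_contra h
    exact hr₀ (Finset.mem_union_left _ (Finset.mem_union_left _ (Finsupp.mem_support_iff.2 h)))
  have hE : E₀ r₀ = 0 := by
    by_contra h
    exact hr₀ (Finset.mem_union_left _ (Finset.mem_union_right _ (Finsupp.mem_support_iff.2 h)))
  have hinf : r₀ ≠ inf := fun h =>
    hr₀ (Finset.mem_union_right _ (Finset.mem_singleton.2 h))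
  -- the leading coefficients
  set aQ : Fin d → Ω := fun j =>
    val (Q' j) (φ * (ι y₀ - algebraMap Ω FΩ (σ' j y₀)) ^ (-(m : ℤ))) with haQ
  set aη : Ω := val η' (φ * (ι y₀ - algebraMap Ω FΩ (algebraMap Fk Ω y₀)) ^ (1 : ℤ)) with haη
  set a₀ : Ω := val (cst r₀) φ with ha₀
  set T : Finset Ω := (Finset.univ.image aQ) ∪ {aη, a₀} with hT
  obtain ⟨L, η, σ, h1, h2, h3, h4, h5, h6, h7, h8, h9⟩ :=
    Compositum.exists_compositum_of_isAlgebraic (K := k) (F := Fk) (Ω := Ω) y₀ hy₀ σ' T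
  have hL : LData σ' y₀ L η σ := ⟨h1, h2, h4, h5, h6, h7, h8, h9⟩
  have hR : DegRat ι m cst η' Q' σ' φ y₀ r₀ L := by
    refine ⟨fun j => ⟨⟨aQ j, h3 _ ?_⟩, rfl⟩, ⟨⟨aη, h3 _ ?_⟩, rfl⟩, ⟨⟨a₀, h3 _ ?_⟩, rfl⟩⟩
    · exact Finset.mem_union_left _ (Finset.mem_image_of_mem _ (Finset.mem_univ j))
    · exact Finset.mem_union_right _ (Finset.mem_insert_self _ _)
    · exact Finset.mem_union_right _ (Finset.mem_insert_of_mem (Finset.mem_singleton_self _))
  exact gendiv_of_halves inf hdeg g m d hΩ.d_le η σ _ h5 (hSPEC L η σ hL)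
    (hDEG r₀ hB hE hinf L η σ hL hR)

/-- **`GENDIV` for a constant field extension to an algebraic closure of the function field**
(genus `g ≥ 1`), modulo the (DEG) contract. -/
theorem gendiv_of_constExt [CharZero k] [IsAlgClosed k] [IsAlgClosed Ω]
    [Algebra.IsAlgebraic Fk Ω] [RatPlaces Ω FΩ] {ι : Fk →ₐ[k] FΩ} (hc : ConstExt Ω ι) {g : ℕ}
    (hFk : IsCurveOfGenus k Fk g) (hg : 1 ≤ g) {y₀ : Fk} (hy₀ : Transcendental k y₀)
    [FiniteDimensional k⟮y₀⟯ Fk] (hDEG : DegContract (Ω := Ω) ι g y₀)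
    (inf : Place k Fk) (hdeg : ∀ P : Place k Fk, P.deg = 1) {m : ℕ} (hm : 0 < m) :
    GENDIV.{u, v, w} inf hdeg g m := by
  have hFΩ : IsCurveOfGenus Ω FΩ g := hc.isCurveOfGenus_of_isAlgebraic hFk hy₀
  haveI := hFk.infinite_places
  obtain ⟨cst, η', d, Q', σ', B₀, E₀, φ, hΩ, hd⟩ := hc.exists_omega_data_dict hFk hg hy₀ inf hm
  exact gendiv_generic ι hy₀ inf hdeg m hΩ
    (fun L η σ hL => spec_of_contract hc hFk hFΩ hy₀ inf hdeg m hΩ L η σ hL)
    (fun r₀ hB hE hinf L η σ hL hR =>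
      hDEG inf m hm cst η' d Q' σ' B₀ E₀ φ hΩ (fun Q hQ f _ => hd.ord_iota_eq_zero hQ f)
        r₀ hB hE hinf L η σ hL hR)

end

end Fermat.Agent.S17lib
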